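import Mathlib

/-!
# S58 scratch, block (E2) RedInj, part 1: the kernel of reduction, coordinate level

General Weierstrass equation `y² + a₁ x y + a₃ y = x³ + a₂ x² + a₄ x + a₆` over a field `K` with a
valuation `v` such that `v aᵢ ≤ 1` (no hypothesis on the discriminant, none on the residue
characteristic).  We work in the coordinates `(z, w) = (-x/y, -1/y)`, where the curve is
`w = z³ + a₁ z w + a₂ z² w + a₃ w² + a₄ z w² + a₆ w³` and the line `y = L x + ν` becomes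
`w = l z + n` with `l = -L/ν`, `n = -1/ν`.

This is the port of `Fermat/Agent/S13/Local/NodalKernel.lean` (which has `a₃ = a₆ = 0`).
-/

set_option autoImplicit false
set_option linter.unusedSectionVars false

namespace Fermat.Agent.S58.Red.KernelAlg

variable {K : Type*} [Field K] {Γ₀ : Type*} [LinearOrderedCommGroupWithZero Γ₀]
  (v : Valuation K Γ₀)

/-! ### Valuation helpers -/

theorem v_mul_le {a x : K} {r : Γ₀} (ha : v a ≤ 1) (hx : v x ≤ r) : v (a * x) ≤ r := by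
  rw [map_mul]
  calc v a * v x ≤ 1 * r := mul_le_mul' ha hx
    _ = r := one_mul r

theorem v_mul_lt {a x : K} {r : Γ₀} (ha : v a ≤ 1) (hx : v x < r) : v (a * x) < r :=
  lt_of_le_of_lt (v_mul_le v ha le_rfl) hx

theorem v_mul_le_mul {x y : K} {r s : Γ₀} (hx : v x ≤ r) (hy : v y ≤ s) :
    v (x * y) ≤ r * s := by
  rw [map_mul]; exact mul_le_mul' hx hy

theorem v_pow_le {x : K} {r : Γ₀} (hx : v x ≤ r) (n : ℕ) : v (x ^ n) ≤ r ^ n := by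
  rw [map_pow]; exact pow_le_pow_left' hx n

theorem pow_le_pow_of_le_one_G {m : Γ₀} (hm : m ≤ 1) {a b : ℕ} (hab : a ≤ b) : m ^ b ≤ m ^ a :=
  pow_le_pow_right_of_le_one' hm hab

theorem v_natCast_le (n : ℕ) : v (n : K) ≤ 1 := by
  induction n with
  | zero => simp
  | succ n ih =>
    rw [Nat.cast_succ]
    exact v.map_add_le ih (by rw [map_one])

theorem v_two_le : v (2 : K) ≤ 1 := by
  have : (2 : K) = ((2 : ℕ) : K) := by norm_num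
  rw [this]; exact v_natCast_le v 2

theorem v_three_le : v (3 : K) ≤ 1 := by
  have : (3 : K) = ((3 : ℕ) : K) := by norm_num
  rw [this]; exact v_natCast_le v 3

theorem ne_zero_of_v_eq_one {u : K} (hu : v u = 1) : u ≠ 0 := by
  intro h
  rw [h, map_zero] at hu
  exact zero_ne_one hu

theorem sq_lt_one {m : Γ₀} (hm : m < 1) : m ^ 2 < 1 :=
  pow_lt_one₀ zero_le hm two_ne_zero

/-- the unit `U = 1 - a₁ z - a₂ z² - a₃ s - a₄ z s - a₆ t` (`z`, `s`, `t` small) -/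
theorem v_U {a1 a2 a3 a4 a6 z s t : K} (h1 : v a1 ≤ 1) (h2 : v a2 ≤ 1) (h3 : v a3 ≤ 1)
    (h4 : v a4 ≤ 1) (h6 : v a6 ≤ 1) (hz : v z < 1) (hs : v s < 1) (ht : v t < 1) :
    v (1 - a1 * z - a2 * z ^ 2 - a3 * s - a4 * z * s - a6 * t) = 1 := by
  have : 1 - a1 * z - a2 * z ^ 2 - a3 * s - a4 * z * s - a6 * t
      = 1 - (a1 * z + a2 * z ^ 2 + a3 * s + a4 * z * s + a6 * t) := by ring
  rw [this]
  apply v.map_one_sub_of_lt
  refine v.map_add_lt (v.map_add_lt (v.map_add_lt (v.map_add_lt ?_ ?_) ?_) ?_) ?_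
  · exact v_mul_lt v h1 hz
  · refine v_mul_lt v h2 ?_
    rw [map_pow]; exact sq_lt_one hz
  · exact v_mul_lt v h3 hs
  · rw [mul_assoc]
    refine v_mul_lt v h4 ?_
    rw [mul_comm]
    exact v_mul_lt v hs.le hz
  · exact v_mul_lt v h6 ht

/-! ### A single point of the kernel of reduction -/

/-- For a point with `1 < v x`: `v x < v y`. -/
theorem v_x_lt_v_y {a1 a2 a3 a4 a6 x y : K} (h1 : v a1 ≤ 1) (h2 : v a2 ≤ 1) (h3 : v a3 ≤ 1)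
    (h4 : v a4 ≤ 1) (h6 : v a6 ≤ 1) (hx : 1 < v x)
    (hc : y ^ 2 + a1 * x * y + a3 * y = x ^ 3 + a2 * x ^ 2 + a4 * x + a6) : v x < v y := by
  by_contra hle
  rw [not_lt] at hle
  have hx0 : (0 : Γ₀) < v x := lt_trans zero_lt_one hx
  have hsq : v x ^ 2 < v x ^ 3 := by
    calc v x ^ 2 = v x ^ 2 * 1 := (mul_one _).symm
      _ < v x ^ 2 * v x := mul_lt_mul_of_pos_left hx (pow_pos hx0 2)
      _ = v x ^ 3 := (pow_succ (v x) 2).symm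
  have hx12 : v x ≤ v x ^ 2 := by
    calc v x = v x * 1 := (mul_one _).symm
      _ ≤ v x * v x := mul_le_mul' le_rfl hx.le
      _ = v x ^ 2 := (pow_two (v x)).symm
  have hR : v (x ^ 3 + a2 * x ^ 2 + a4 * x + a6) = v x ^ 3 := by
    rw [add_assoc, add_assoc]
    have : v (a2 * x ^ 2 + (a4 * x + a6)) < v (x ^ 3) := by
      rw [map_pow]
      refine lt_of_le_of_lt (v.map_add_le (g := v x ^ 2) ?_ (v.map_add_le ?_ ?_)) hsq
      · exact v_mul_le v h2 (by rw [map_pow])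
      · exact v_mul_le v h4 hx12
      · exact h6.trans (hx.le.trans hx12)
    rw [v.map_add_eq_of_lt_left this, map_pow]
  have hL : v (y ^ 2 + a1 * x * y + a3 * y) ≤ v x ^ 2 := by
    refine v.map_add_le (v.map_add_le ?_ ?_) ?_
    · rw [map_pow]; exact pow_le_pow_left₀ zero_le hle 2
    · rw [mul_assoc]
      refine v_mul_le v h1 ?_
      rw [map_mul, pow_two]
      exact mul_le_mul' le_rfl hle
    · exact v_mul_le v h3 (hle.trans hx12)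
  rw [hc, hR] at hL
  exact absurd hL (not_le.mpr hsq)

/-- A point of the `(z, w)`-curve near the origin has `v w = v z ^ 3`. -/
theorem zw_val {a1 a2 a3 a4 a6 z w : K} (h1 : v a1 ≤ 1) (h2 : v a2 ≤ 1) (h3 : v a3 ≤ 1)
    (h4 : v a4 ≤ 1) (h6 : v a6 ≤ 1) (hz : v z < 1) (hw : v w < 1)
    (e : w = z ^ 3 + a1 * z * w + a2 * z ^ 2 * w + a3 * w ^ 2 + a4 * z * w ^ 2 + a6 * w ^ 3) :
    v w = v z ^ 3 := by
  have h : w * (1 - a1 * z - a2 * z ^ 2 - a3 * w - a4 * z * w - a6 * w ^ 2) = z ^ 3 := by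
    linear_combination e
  have hw2 : v (w ^ 2) < 1 := by rw [map_pow]; exact sq_lt_one hw
  have := congrArg v h
  rwa [map_mul, v_U v h1 h2 h3 h4 h6 hz hw hw2, mul_one, map_pow] at this

/-- The `(z, w) = (-x/y, -1/y)` coordinates of a point in the kernel of reduction. -/
theorem point_zw {a1 a2 a3 a4 a6 x y : K} (h1 : v a1 ≤ 1) (h2 : v a2 ≤ 1) (h3 : v a3 ≤ 1)
    (h4 : v a4 ≤ 1) (h6 : v a6 ≤ 1) (hx : 1 < v x)
    (hc : y ^ 2 + a1 * x * y + a3 * y = x ^ 3 + a2 * x ^ 2 + a4 * x + a6) :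
    x ≠ 0 ∧ y ≠ 0 ∧ v (-x / y) < 1 ∧ v (-1 / y) = v (-x / y) ^ 3 ∧
      -1 / y = (-x / y) ^ 3 + a1 * (-x / y) * (-1 / y) + a2 * (-x / y) ^ 2 * (-1 / y)
        + a3 * (-1 / y) ^ 2 + a4 * (-x / y) * (-1 / y) ^ 2 + a6 * (-1 / y) ^ 3 := by
  have hxy := v_x_lt_v_y v h1 h2 h3 h4 h6 hx hc
  have hx0 : x ≠ 0 := by
    rintro rfl
    rw [map_zero] at hx
    exact absurd hx (not_lt.mpr zero_le_one)
  have hy1 : 1 < v y := lt_trans hx hxy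
  have hy0 : y ≠ 0 := by
    rintro rfl
    rw [map_zero] at hy1
    exact absurd hy1 (not_lt.mpr zero_le_one)
  have hz : v (-x / y) < 1 := by
    rw [map_div₀, Valuation.map_neg]
    exact (div_lt_one₀ (lt_trans zero_lt_one hy1)).mpr hxy
  have hw : v (-1 / y) < 1 := by
    rw [map_div₀, Valuation.map_neg, map_one]
    exact (div_lt_one₀ (lt_trans zero_lt_one hy1)).mpr hy1
  have e : -1 / y = (-x / y) ^ 3 + a1 * (-x / y) * (-1 / y) + a2 * (-x / y) ^ 2 * (-1 / y)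
        + a3 * (-1 / y) ^ 2 + a4 * (-x / y) * (-1 / y) ^ 2 + a6 * (-1 / y) ^ 3 := by
    field_simp
    linear_combination -hc
  exact ⟨hx0, hy0, hz, zw_val v h1 h2 h3 h4 h6 hz hw e, e⟩

/-! ### Two points: the divided difference and the line in the `(z, w)`-plane -/

/-- The divided difference of the `(z, w)`-equation. -/
theorem divided_difference {a1 a2 a3 a4 a6 z1 w1 z2 w2 : K}
    (e1 : w1 = z1 ^ 3 + a1 * z1 * w1 + a2 * z1 ^ 2 * w1 + a3 * w1 ^ 2 + a4 * z1 * w1 ^ 2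
      + a6 * w1 ^ 3)
    (e2 : w2 = z2 ^ 3 + a1 * z2 * w2 + a2 * z2 ^ 2 * w2 + a3 * w2 ^ 2 + a4 * z2 * w2 ^ 2
      + a6 * w2 ^ 3) :
    (w2 - w1) * (1 - a1 * z1 - a2 * z1 ^ 2 - a3 * (w1 + w2) - a4 * z1 * (w1 + w2)
        - a6 * (w1 ^ 2 + w1 * w2 + w2 ^ 2)) =
      (z2 - z1) * (z2 ^ 2 + z1 * z2 + z1 ^ 2 + a1 * w2 + a2 * (z1 + z2) * w2 + a4 * w2 ^ 2) := by
  linear_combination e2 - e1

/-- the unit of the divided difference -/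
theorem v_Udd {a1 a2 a3 a4 a6 z1 w1 w2 : K} (h1 : v a1 ≤ 1) (h2 : v a2 ≤ 1) (h3 : v a3 ≤ 1)
    (h4 : v a4 ≤ 1) (h6 : v a6 ≤ 1) (hz : v z1 < 1) (hw1 : v w1 < 1) (hw2 : v w2 < 1) :
    v (1 - a1 * z1 - a2 * z1 ^ 2 - a3 * (w1 + w2) - a4 * z1 * (w1 + w2)
        - a6 * (w1 ^ 2 + w1 * w2 + w2 ^ 2)) = 1 := by
  refine v_U v h1 h2 h3 h4 h6 hz (v.map_add_lt hw1 hw2) ?_
  refine v.map_add_lt (v.map_add_lt ?_ ?_) ?_
  · rw [map_pow]; exact sq_lt_one hw1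
  · exact v_mul_lt v hw1.le hw2
  · rw [map_pow]; exact sq_lt_one hw2

/-- **Valuation estimates for the line through two points of the `(z, w)`-curve near the
origin.** -/
theorem zw_slope {a1 a2 a3 a4 a6 z1 w1 z2 w2 l n : K} {m : Γ₀}
    (h1 : v a1 ≤ 1) (h2 : v a2 ≤ 1) (h3 : v a3 ≤ 1) (h4 : v a4 ≤ 1) (h6 : v a6 ≤ 1) (hm : m < 1)
    (hz1 : v z1 ≤ m) (hz2 : v z2 ≤ m) (hw1 : v w1 ≤ m ^ 3) (hw2 : v w2 ≤ m ^ 3)
    (hl1 : w1 = l * z1 + n)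
    (hlUN : l * (1 - a1 * z1 - a2 * z1 ^ 2 - a3 * (w1 + w2) - a4 * z1 * (w1 + w2)
        - a6 * (w1 ^ 2 + w1 * w2 + w2 ^ 2)) =
      z2 ^ 2 + z1 * z2 + z1 ^ 2 + a1 * w2 + a2 * (z1 + z2) * w2 + a4 * w2 ^ 2) :
    v l ≤ m ^ 2 ∧ v n ≤ m ^ 3 ∧ v (1 + a2 * l + a4 * l ^ 2 + a6 * l ^ 3) = 1 ∧
      v (a1 * l + a2 * n + a3 * l ^ 2 + 2 * a4 * l * n + 3 * a6 * l ^ 2 * n) ≤ m ^ 2 := by
  have hm1 : m ≤ 1 := hm.le
  have hm32 : m ^ 3 ≤ m ^ 2 := pow_le_pow_of_le_one_G hm1 (by norm_num)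
  have hm21 : m ^ 2 ≤ m := by
    calc m ^ 2 ≤ m ^ 1 := pow_le_pow_of_le_one_G hm1 (by norm_num)
      _ = m := pow_one m
  have hm2lt : m ^ 2 < 1 := lt_of_le_of_lt hm21 hm
  have hm3lt : m ^ 3 < 1 := lt_of_le_of_lt hm32 hm2lt
  have hz1' : v z1 < 1 := lt_of_le_of_lt hz1 hm
  have hw1' : v w1 < 1 := lt_of_le_of_lt hw1 hm3lt
  have hw2' : v w2 < 1 := lt_of_le_of_lt hw2 hm3lt
  have hU := v_Udd v h1 h2 h3 h4 h6 hz1' hw1' hw2'
  have hN : v (z2 ^ 2 + z1 * z2 + z1 ^ 2 + a1 * w2 + a2 * (z1 + z2) * w2 + a4 * w2 ^ 2)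
      ≤ m ^ 2 := by
    refine v.map_add_le (v.map_add_le (v.map_add_le (v.map_add_le (v.map_add_le ?_ ?_) ?_) ?_) ?_) ?_
    · exact v_pow_le v hz2 2
    · rw [pow_two]; exact v_mul_le_mul v hz1 hz2
    · exact v_pow_le v hz1 2
    · exact v_mul_le v h1 (hw2.trans hm32)
    · rw [mul_assoc]
      refine v_mul_le v h2 ?_
      exact v_mul_le v ((v.map_add_le hz1 hz2).trans hm1) (hw2.trans hm32)
    · refine v_mul_le v h4 ?_
      rw [pow_two]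
      exact v_mul_le v hw2'.le (hw2.trans hm32)
  have hl : v l ≤ m ^ 2 := by
    have := congrArg v hlUN
    rw [map_mul, hU, mul_one] at this
    rw [this]; exact hN
  have hn : v n ≤ m ^ 3 := by
    have : n = w1 - l * z1 := by rw [hl1]; ring
    rw [this]
    refine v.map_sub_le hw1 ?_
    calc v (l * z1) ≤ m ^ 2 * m := v_mul_le_mul v hl hz1
      _ = m ^ 3 := (pow_succ m 2).symm
  have hl1' : v l < 1 := lt_of_le_of_lt hl hm2lt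
  have hn1' : v n ≤ 1 := hn.trans hm3lt.le
  have hl2 : v (l ^ 2) ≤ m ^ 2 := by
    rw [pow_two]; exact v_mul_le v hl1'.le hl
  have hc3 : v (1 + a2 * l + a4 * l ^ 2 + a6 * l ^ 3) = 1 := by
    have : 1 + a2 * l + a4 * l ^ 2 + a6 * l ^ 3 = 1 + l * (a2 + a4 * l + a6 * l ^ 2) := by ring
    rw [this]
    apply v.map_one_add_of_lt
    rw [map_mul]
    have hb : v (a2 + a4 * l + a6 * l ^ 2) ≤ 1 := by
      refine v.map_add_le (v.map_add_le h2 (v_mul_le v h4 hl1'.le)) (v_mul_le v h6 ?_)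
      exact hl2.trans hm2lt.le
    calc v l * v (a2 + a4 * l + a6 * l ^ 2) ≤ v l * 1 := mul_le_mul' le_rfl hb
      _ = v l := mul_one _
      _ < 1 := hl1'
  have hc2 : v (a1 * l + a2 * n + a3 * l ^ 2 + 2 * a4 * l * n + 3 * a6 * l ^ 2 * n) ≤ m ^ 2 := by
    refine v.map_add_le (v.map_add_le (v.map_add_le (v.map_add_le ?_ ?_) ?_) ?_) ?_
    · exact v_mul_le v h1 hl
    · exact v_mul_le v h2 (hn.trans hm32)
    · exact v_mul_le v h3 hl2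
    · rw [mul_assoc, mul_assoc]
      refine v_mul_le v (v_two_le v) (v_mul_le v h4 ?_)
      rw [mul_comm]
      exact v_mul_le v hn1' hl
    · rw [mul_assoc, mul_assoc]
      refine v_mul_le v (v_three_le v) (v_mul_le v h6 ?_)
      rw [mul_comm]
      exact v_mul_le v hn1' hl2
  exact ⟨hl, hn, hc3, hc2⟩

/-- **The third point of the line.** -/
theorem zw_third {z1 z2 z3 w3 l n c3 c2 : K} {m : Γ₀} (hm : m < 1)
    (hz1 : v z1 ≤ m) (hz2 : v z2 ≤ m) (hl : v l ≤ m ^ 2) (hn : v n ≤ m ^ 3)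
    (hc3 : v c3 = 1) (hc2 : v c2 ≤ m ^ 2)
    (hl3 : w3 = l * z3 + n)
    (hsum : (z1 + z2 + z3) * c3 = -c2) :
    v (z1 + z2 + z3) ≤ m ^ 2 ∧ v z3 ≤ m ∧ v w3 ≤ m ^ 3 := by
  have hm1 : m ≤ 1 := hm.le
  have hm21 : m ^ 2 ≤ m := by
    calc m ^ 2 ≤ m ^ 1 := pow_le_pow_of_le_one_G hm1 (by norm_num)
      _ = m := pow_one m
  have hs : v (z1 + z2 + z3) ≤ m ^ 2 := by
    have := congrArg v hsum
    rw [map_mul, hc3, mul_one, Valuation.map_neg] at this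
    rw [this]; exact hc2
  have hz3 : v z3 ≤ m := by
    have : z3 = (z1 + z2 + z3) - z1 - z2 := by ring
    rw [this]
    exact v.map_sub_le (v.map_sub_le (hs.trans hm21) hz1) hz2
  refine ⟨hs, hz3, ?_⟩
  rw [hl3]
  refine v.map_add_le ?_ hn
  calc v (l * z3) ≤ m ^ 2 * m := v_mul_le_mul v hl hz3
    _ = m ^ 3 := (pow_succ m 2).symm

/-! ### Vieta's formulas for the cubic in `x` -/

theorem vieta_prod_y {a1 a2 a3 a4 a6 x1 x2 x3 L ν : K}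
    (hV1 : x1 + x2 + x3 = L ^ 2 + a1 * L - a2)
    (hV2 : x1 * x2 + x1 * x3 + x2 * x3 = a4 - 2 * L * ν - a1 * ν - a3 * L)
    (hV3 : x1 * x2 * x3 = ν ^ 2 + a3 * ν - a6) :
    (L * x1 + ν) * (L * x2 + ν) * (L * x3 + ν)
      = ν ^ 3 - a2 * L * ν ^ 2 + a4 * L ^ 2 * ν - a6 * L ^ 3 := by
  linear_combination L ^ 3 * hV3 + L ^ 2 * ν * hV2 + L * ν ^ 2 * hV1

theorem vieta_sum_xyy {a1 a2 a3 a4 a6 x1 x2 x3 L ν : K}
    (hV1 : x1 + x2 + x3 = L ^ 2 + a1 * L - a2)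
    (hV2 : x1 * x2 + x1 * x3 + x2 * x3 = a4 - 2 * L * ν - a1 * ν - a3 * L)
    (hV3 : x1 * x2 * x3 = ν ^ 2 + a3 * ν - a6) :
    x1 * (L * x2 + ν) * (L * x3 + ν) + x2 * (L * x1 + ν) * (L * x3 + ν)
      + x3 * (L * x1 + ν) * (L * x2 + ν)
      = a3 * L ^ 2 * ν - 3 * a6 * L ^ 2 + 2 * a4 * L * ν - a1 * L * ν ^ 2 - a2 * ν ^ 2 := by
  linear_combination 3 * L ^ 2 * hV3 + 2 * L * ν * hV2 + ν ^ 2 * hV1

/-- the third point of the line lies on the curve -/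
theorem vieta_third {a1 a2 a3 a4 a6 x1 x2 x3 L ν : K}
    (hV1 : x1 + x2 + x3 = L ^ 2 + a1 * L - a2)
    (hV2 : x1 * x2 + x1 * x3 + x2 * x3 = a4 - 2 * L * ν - a1 * ν - a3 * L)
    (hV3 : x1 * x2 * x3 = ν ^ 2 + a3 * ν - a6) :
    (L * x3 + ν) ^ 2 + a1 * x3 * (L * x3 + ν) + a3 * (L * x3 + ν)
      = x3 ^ 3 + a2 * x3 ^ 2 + a4 * x3 + a6 := by
  linear_combination -x3 ^ 2 * hV1 + x3 * hV2 - hV3

/-! ### The sum of the `z`-coordinates and the core lemma -/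

/-- the sum of the `z`-coordinates of three collinear points -/
theorem sum_formula {a1 a2 a3 a4 a6 x1 x2 x3 y1 y2 y3 L ν : K} (hy1 : y1 ≠ 0) (hy2 : y2 ≠ 0)
    (hy3 : y3 ≠ 0) (hν : ν ≠ 0)
    (hD : ν ^ 3 - a2 * L * ν ^ 2 + a4 * L ^ 2 * ν - a6 * L ^ 3 ≠ 0)
    (hprod : y1 * y2 * y3 = ν ^ 3 - a2 * L * ν ^ 2 + a4 * L ^ 2 * ν - a6 * L ^ 3)
    (hsumxyy : x1 * y2 * y3 + x2 * y1 * y3 + x3 * y1 * y2
      = a3 * L ^ 2 * ν - 3 * a6 * L ^ 2 + 2 * a4 * L * ν - a1 * L * ν ^ 2 - a2 * ν ^ 2) :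
    (-x1 / y1 + -x2 / y2 + -x3 / y3)
        * (1 + a2 * (-L / ν) + a4 * (-L / ν) ^ 2 + a6 * (-L / ν) ^ 3)
      = -(a1 * (-L / ν) + a2 * (-1 / ν) + a3 * (-L / ν) ^ 2 + 2 * a4 * (-L / ν) * (-1 / ν)
          + 3 * a6 * (-L / ν) ^ 2 * (-1 / ν)) := by
  have h : -x1 / y1 + -x2 / y2 + -x3 / y3
      = -(x1 * y2 * y3 + x2 * y1 * y3 + x3 * y1 * y2) / (y1 * y2 * y3) := by
    field_simp
    ring
  have hc3 : 1 + a2 * (-L / ν) + a4 * (-L / ν) ^ 2 + a6 * (-L / ν) ^ 3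
      = (ν ^ 3 - a2 * L * ν ^ 2 + a4 * L ^ 2 * ν - a6 * L ^ 3) / ν ^ 3 := by
    field_simp
    ring
  rw [h, hsumxyy, hprod, hc3]
  generalize ν ^ 3 - a2 * L * ν ^ 2 + a4 * L ^ 2 * ν - a6 * L ^ 3 = Dn at hD
  field_simp
  ring

/-- **Core lemma** (free variables): the third point of the line through two points of the
kernel of reduction. -/
theorem core_xy {a1 a2 a3 a4 a6 x1 y1 x2 y2 x3 L ν : K}
    (h1 : v a1 ≤ 1) (h2 : v a2 ≤ 1) (h3 : v a3 ≤ 1) (h4 : v a4 ≤ 1) (h6 : v a6 ≤ 1)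
    (hx1 : 1 < v x1) (hx2 : 1 < v x2)
    (hc1 : y1 ^ 2 + a1 * x1 * y1 + a3 * y1 = x1 ^ 3 + a2 * x1 ^ 2 + a4 * x1 + a6)
    (hc2 : y2 ^ 2 + a1 * x2 * y2 + a3 * y2 = x2 ^ 3 + a2 * x2 ^ 2 + a4 * x2 + a6)
    (hl1 : y1 = L * x1 + ν) (hl2 : y2 = L * x2 + ν)
    (hLUN : L * (1 - a1 * (-x1 / y1) - a2 * (-x1 / y1) ^ 2 - a3 * (-1 / y1 + -1 / y2)
        - a4 * (-x1 / y1) * (-1 / y1 + -1 / y2)
        - a6 * ((-1 / y1) ^ 2 + (-1 / y1) * (-1 / y2) + (-1 / y2) ^ 2))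
      + ν * ((-x2 / y2) ^ 2 + (-x1 / y1) * (-x2 / y2) + (-x1 / y1) ^ 2 + a1 * (-1 / y2)
        + a2 * (-x1 / y1 + -x2 / y2) * (-1 / y2) + a4 * (-1 / y2) ^ 2) = 0)
    (hV1 : x1 + x2 + x3 = L ^ 2 + a1 * L - a2)
    (hV2 : x1 * x2 + x1 * x3 + x2 * x3 = a4 - 2 * L * ν - a1 * ν - a3 * L)
    (hV3 : x1 * x2 * x3 = ν ^ 2 + a3 * ν - a6) :
    ∃ y3 z3 : K, y3 = L * x3 + ν ∧ y3 ≠ 0 ∧ z3 = -x3 / y3 ∧ z3 ≠ 0 ∧
      v z3 ≤ max (v (-x1 / y1)) (v (-x2 / y2)) ∧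
      v (-1 / y3) ≤ max (v (-x1 / y1)) (v (-x2 / y2)) ^ 3 ∧
      v (-x1 / y1 + -x2 / y2 + z3) ≤ max (v (-x1 / y1)) (v (-x2 / y2)) ^ 2 ∧
      v x3 * v z3 ^ 2 = 1 := by
  obtain ⟨hx10, hy10, hz1, hw1, e1⟩ := point_zw v h1 h2 h3 h4 h6 hx1 hc1
  obtain ⟨hx20, hy20, hz2, hw2, e2⟩ := point_zw v h1 h2 h3 h4 h6 hx2 hc2
  generalize hz1d : -x1 / y1 = z1 at *
  generalize hw1d : -1 / y1 = w1 at *
  generalize hz2d : -x2 / y2 = z2 at *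
  generalize hw2d : -1 / y2 = w2 at *
  set m := max (v z1) (v z2) with hm
  have hmlt : m < 1 := max_lt hz1 hz2
  have hm1 : m ≤ 1 := hmlt.le
  have hz1m : v z1 ≤ m := le_max_left _ _
  have hz2m : v z2 ≤ m := le_max_right _ _
  have hw1m : v w1 ≤ m ^ 3 := by rw [hw1]; exact pow_le_pow_left' hz1m 3
  have hw2m : v w2 ≤ m ^ 3 := by rw [hw2]; exact pow_le_pow_left' hz2m 3
  have hm3lt : m ^ 3 < 1 := pow_lt_one₀ zero_le hmlt (by norm_num)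
  have hU := v_Udd v h1 h2 h3 h4 h6 hz1 (lt_of_le_of_lt hw1m hm3lt) (lt_of_le_of_lt hw2m hm3lt)
  have hU0 := ne_zero_of_v_eq_one v hU
  have hν : ν ≠ 0 := by
    rintro rfl
    rw [zero_mul, add_zero] at hLUN
    have hL0 : L = 0 := (mul_eq_zero.mp hLUN).resolve_right hU0
    apply hy10
    rw [hl1, hL0]; ring
  have hl1' : w1 = -L / ν * z1 + -1 / ν := by
    rw [← hw1d, ← hz1d]
    field_simp
    linear_combination hl1
  have hlUN : -L / ν * (1 - a1 * z1 - a2 * z1 ^ 2 - a3 * (w1 + w2) - a4 * z1 * (w1 + w2)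
        - a6 * (w1 ^ 2 + w1 * w2 + w2 ^ 2)) =
      z2 ^ 2 + z1 * z2 + z1 ^ 2 + a1 * w2 + a2 * (z1 + z2) * w2 + a4 * w2 ^ 2 := by
    field_simp
    linear_combination -hLUN
  obtain ⟨hl, hn, hc3, hc2'⟩ :=
    zw_slope v h1 h2 h3 h4 h6 hmlt hz1m hz2m hw1m hw2m hl1' hlUN
  have hprod := vieta_prod_y hV1 hV2 hV3
  have hsumxyy := vieta_sum_xyy hV1 hV2 hV3
  have hthird := vieta_third hV1 hV2 hV3
  have hDn : ν ^ 3 - a2 * L * ν ^ 2 + a4 * L ^ 2 * ν - a6 * L ^ 3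
      = ν ^ 3 * (1 + a2 * (-L / ν) + a4 * (-L / ν) ^ 2 + a6 * (-L / ν) ^ 3) := by
    field_simp
    ring
  have hc30 := ne_zero_of_v_eq_one v hc3
  have hDn0 : ν ^ 3 - a2 * L * ν ^ 2 + a4 * L ^ 2 * ν - a6 * L ^ 3 ≠ 0 := by
    rw [hDn]; exact mul_ne_zero (pow_ne_zero 3 hν) hc30
  have hy30 : L * x3 + ν ≠ 0 := by
    intro h
    rw [h, mul_zero] at hprod
    exact hDn0 hprod.symm
  refine ⟨L * x3 + ν, -x3 / (L * x3 + ν), rfl, hy30, rfl, ?_⟩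
  have hl3 : -1 / (L * x3 + ν) = -L / ν * (-x3 / (L * x3 + ν)) + -1 / ν := by
    field_simp
    ring
  have hsum : (z1 + z2 + -x3 / (L * x3 + ν))
        * (1 + a2 * (-L / ν) + a4 * (-L / ν) ^ 2 + a6 * (-L / ν) ^ 3)
      = -(a1 * (-L / ν) + a2 * (-1 / ν) + a3 * (-L / ν) ^ 2 + 2 * a4 * (-L / ν) * (-1 / ν)
          + 3 * a6 * (-L / ν) ^ 2 * (-1 / ν)) := by
    rw [← hz1d, ← hz2d]
    refine sum_formula hy10 hy20 hy30 hν hDn0 ?_ ?_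
    · rw [hl1, hl2]; exact hprod
    · rw [hl1, hl2]; linear_combination hsumxyy
  obtain ⟨hs, hz3, hw3⟩ := zw_third v hmlt hz1m hz2m hl hn hc3 hc2' hl3 hsum
  have e3 : -1 / (L * x3 + ν) = (-x3 / (L * x3 + ν)) ^ 3
      + a1 * (-x3 / (L * x3 + ν)) * (-1 / (L * x3 + ν))
      + a2 * (-x3 / (L * x3 + ν)) ^ 2 * (-1 / (L * x3 + ν))
      + a3 * (-1 / (L * x3 + ν)) ^ 2
      + a4 * (-x3 / (L * x3 + ν)) * (-1 / (L * x3 + ν)) ^ 2
      + a6 * (-1 / (L * x3 + ν)) ^ 3 := by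
    field_simp
    linear_combination -hthird
  have hz3lt : v (-x3 / (L * x3 + ν)) < 1 := lt_of_le_of_lt hz3 hmlt
  have hw3v := zw_val v h1 h2 h3 h4 h6 hz3lt (lt_of_le_of_lt hw3 hm3lt) e3
  have hw30 : -1 / (L * x3 + ν) ≠ 0 := div_ne_zero (neg_ne_zero.mpr one_ne_zero) hy30
  have hz30 : -x3 / (L * x3 + ν) ≠ 0 := by
    intro h
    rw [h, map_zero, zero_pow (by norm_num)] at hw3v
    exact hw30 ((v.zero_iff).mp hw3v)
  refine ⟨hz30, hz3, hw3, hs, ?_⟩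
  have hvz0 : v (-x3 / (L * x3 + ν)) ≠ 0 := (v.ne_zero_iff).mpr hz30
  have hx3 : v x3 = v (-x3 / (L * x3 + ν)) / v (-1 / (L * x3 + ν)) := by
    rw [← map_div₀, div_div_div_cancel_right₀ hy30, neg_div_neg_eq, div_one]
  rw [hx3, hw3v, div_mul_eq_mul_div, div_eq_one_iff_eq (pow_ne_zero 3 hvz0), ← pow_succ']

/-! ### The relation `L U + ν N = 0` and the final estimate -/

/-- `L U + ν N = 0`, tangent case. -/
theorem lun_tangent {a1 a2 a3 a4 a6 x y L : K} (hy : y ≠ 0)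
    (hc : y ^ 2 + a1 * x * y + a3 * y = x ^ 3 + a2 * x ^ 2 + a4 * x + a6)
    (hL : L * (2 * y + a1 * x + a3) = 3 * x ^ 2 + 2 * a2 * x + a4 - a1 * y) :
    L * (1 - a1 * (-x / y) - a2 * (-x / y) ^ 2 - a3 * (-1 / y + -1 / y)
        - a4 * (-x / y) * (-1 / y + -1 / y)
        - a6 * ((-1 / y) ^ 2 + (-1 / y) * (-1 / y) + (-1 / y) ^ 2))
      + (y - L * x) * ((-x / y) ^ 2 + (-x / y) * (-x / y) + (-x / y) ^ 2 + a1 * (-1 / y)
        + a2 * (-x / y + -x / y) * (-1 / y) + a4 * (-1 / y) ^ 2) = 0 := by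
  field_simp
  linear_combination (-y) * hL + 3 * L * hc

/-- `L U + ν N = 0`, chord case. -/
theorem lun_chord {a1 a2 a3 a4 a6 z1 w1 z2 w2 L ν : K}
    (e1 : w1 = z1 ^ 3 + a1 * z1 * w1 + a2 * z1 ^ 2 * w1 + a3 * w1 ^ 2 + a4 * z1 * w1 ^ 2
      + a6 * w1 ^ 3)
    (e2 : w2 = z2 ^ 3 + a1 * z2 * w2 + a2 * z2 ^ 2 * w2 + a3 * w2 ^ 2 + a4 * z2 * w2 ^ 2
      + a6 * w2 ^ 3)
    (hl1 : L * z1 + ν * w1 = -1) (hl2 : L * z2 + ν * w2 = -1) (hne : z1 ≠ z2) :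
    L * (1 - a1 * z1 - a2 * z1 ^ 2 - a3 * (w1 + w2) - a4 * z1 * (w1 + w2)
        - a6 * (w1 ^ 2 + w1 * w2 + w2 ^ 2))
      + ν * (z2 ^ 2 + z1 * z2 + z1 ^ 2 + a1 * w2 + a2 * (z1 + z2) * w2 + a4 * w2 ^ 2) = 0 := by
  have hdd := divided_difference e1 e2
  have hne' : z2 - z1 ≠ 0 := sub_ne_zero.mpr (Ne.symm hne)
  apply mul_left_cancel₀ hne'
  linear_combination (1 - a1 * z1 - a2 * z1 ^ 2 - a3 * (w1 + w2) - a4 * z1 * (w1 + w2)
        - a6 * (w1 ^ 2 + w1 * w2 + w2 ^ 2)) * (hl2 - hl1) - ν * hdd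

/-- the final estimate: `z(P + Q) - z P - z Q` -/
theorem final_estimate {a1 a3 z1 z2 z3 w3 : K} {m : Γ₀} (h1 : v a1 ≤ 1) (h3 : v a3 ≤ 1)
    (hm : m < 1) (hz1 : v z1 ≤ m) (hz2 : v z2 ≤ m) (hz3 : v z3 ≤ m) (hw3 : v w3 ≤ m)
    (hs : v (z1 + z2 + z3) ≤ m ^ 2) :
    v (1 - a1 * z3 - a3 * w3) = 1 ∧ v (-z3 / (1 - a1 * z3 - a3 * w3) - z1 - z2) ≤ m ^ 2 := by
  have hu : v (1 - a1 * z3 - a3 * w3) = 1 := by
    have : 1 - a1 * z3 - a3 * w3 = 1 - (a1 * z3 + a3 * w3) := by ring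
    rw [this]
    apply v.map_one_sub_of_lt
    exact v.map_add_lt (v_mul_lt v h1 (lt_of_le_of_lt hz3 hm)) (v_mul_lt v h3 (lt_of_le_of_lt hw3 hm))
  have hu0 := ne_zero_of_v_eq_one v hu
  refine ⟨hu, ?_⟩
  have : -z3 / (1 - a1 * z3 - a3 * w3) - z1 - z2
      = (-(z1 + z2 + z3) + (a1 * z3 + a3 * w3) * (z1 + z2)) / (1 - a1 * z3 - a3 * w3) := by
    rw [eq_div_iff hu0, sub_mul, sub_mul, div_mul_cancel₀ _ hu0]
    ring
  rw [this, map_div₀, hu, div_one]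
  refine v.map_add_le ?_ ?_
  · rw [Valuation.map_neg]; exact hs
  · rw [pow_two]
    refine v_mul_le_mul v ?_ (v.map_add_le hz1 hz2)
    exact v.map_add_le (v_mul_le v h1 hz3) (v_mul_le v h3 hw3)

/-- `z(-P)` in terms of `z(P)`, `w(P)`: the estimate `v (z(P) + z(-P)) ≤ v (z P) ^ 2`. -/
theorem neg_estimate {a1 a3 z w : K} (h1 : v a1 ≤ 1) (h3 : v a3 ≤ 1) (hz : v z < 1)
    (hw : v w ≤ v z) :
    v (1 - a1 * z - a3 * w) = 1 ∧ v (-z / (1 - a1 * z - a3 * w)) = v z ∧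
      v (0 - z - -z / (1 - a1 * z - a3 * w)) ≤ v z ^ 2 := by
  have hu : v (1 - a1 * z - a3 * w) = 1 := by
    have : 1 - a1 * z - a3 * w = 1 - (a1 * z + a3 * w) := by ring
    rw [this]
    apply v.map_one_sub_of_lt
    exact v.map_add_lt (v_mul_lt v h1 hz) (v_mul_lt v h3 (lt_of_le_of_lt hw hz))
  have hu0 := ne_zero_of_v_eq_one v hu
  refine ⟨hu, ?_, ?_⟩
  · rw [map_div₀, hu, div_one, Valuation.map_neg]
  · have : 0 - z - -z / (1 - a1 * z - a3 * w)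
        = ((a1 * z + a3 * w) * z) / (1 - a1 * z - a3 * w) := by
      rw [eq_div_iff hu0, sub_mul, div_mul_cancel₀ _ hu0]
      ring
    rw [this, map_div₀, hu, div_one, pow_two]
    refine v_mul_le_mul v ?_ le_rfl
    exact v.map_add_le (v_mul_le v h1 le_rfl) (v_mul_le v h3 hw)

end Fermat.Agent.S58.Red.KernelAlg
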