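import Mathlib
import Fermat.Agent.S58.Red.KernelAlg

/-!
# S58 scratch, block (E2) RedInj, part 2: the kernel of reduction as a subgroup of `W.Point`

`W : WeierstrassCurve.Affine K` over a field with a valuation `v`, `v aᵢ ≤ 1`.
`InKer W v P` : `P = 0` or `1 < v (x P)`.  With `zc P = -x/y`:

* `inKer_add`, `inKer_neg`, `inKer_nsmul`;
* `v_zc_add_sub_le` : `v (zc (P + Q) - zc P - zc Q) ≤ max (v (zc P)) (v (zc Q)) ^ 2`;
* `v_zc_nsmul_sub_le` : `v (zc (n • P) - n * zc P) ≤ v (zc P) ^ 2`;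
* `nsmul_ne_zero_of_inKer` : no `n`-torsion in the kernel of reduction when `v n = 1`.
-/

set_option autoImplicit false
set_option linter.unusedSectionVars false

namespace Fermat.Agent.S58.Red.Kernel

open WeierstrassCurve WeierstrassCurve.Affine Polynomial
open Fermat.Agent.S58.Red.KernelAlg

variable {K : Type*} [Field K] [DecidableEq K] {Γ₀ : Type*}
  [LinearOrderedCommGroupWithZero Γ₀] (W : WeierstrassCurve.Affine K) (v : Valuation K Γ₀)

/-- integrality of the Weierstrass coefficients -/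
structure IntegralCoeffs : Prop where
  a1 : v W.a₁ ≤ 1
  a2 : v W.a₂ ≤ 1
  a3 : v W.a₃ ≤ 1
  a4 : v W.a₄ ≤ 1
  a6 : v W.a₆ ≤ 1

/-- the kernel of reduction -/
def InKer : W.Point → Prop
  | .zero => True
  | .some x _ _ => 1 < v x

/-- Silverman's parameter `z = -x/y` (`0` at the origin). -/
noncomputable def zc : W.Point → K
  | .zero => 0
  | .some x y _ => -x / y

variable {W v}

@[simp] theorem inKer_zero : InKer W v (0 : W.Point) := trivial

@[simp] theorem inKer_some {x y : K} (h : W.Nonsingular x y) :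
    InKer W v (Point.some x y h) ↔ 1 < v x := Iff.rfl

@[simp] theorem zc_zero : zc W (0 : W.Point) = 0 := rfl

@[simp] theorem zc_some {x y : K} (h : W.Nonsingular x y) :
    zc W (Point.some x y h) = -x / y := rfl

theorem eqn {x y : K} (h : W.Nonsingular x y) :
    y ^ 2 + W.a₁ * x * y + W.a₃ * y = x ^ 3 + W.a₂ * x ^ 2 + W.a₄ * x + W.a₆ :=
  (W.equation_iff x y).mp h.left

/-- Vieta's formulas for the line through two points, from Mathlib's `addPolynomial_slope`. -/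
theorem vieta {x1 x2 y1 y2 : K} (h1 : W.Equation x1 y1) (h2 : W.Equation x2 y2)
    (hxy : ¬(x1 = x2 ∧ y1 = W.negY x2 y2)) :
    x1 + x2 + W.addX x1 x2 (W.slope x1 x2 y1 y2)
        = W.slope x1 x2 y1 y2 ^ 2 + W.a₁ * W.slope x1 x2 y1 y2 - W.a₂ ∧
      x1 * x2 + x1 * W.addX x1 x2 (W.slope x1 x2 y1 y2)
          + x2 * W.addX x1 x2 (W.slope x1 x2 y1 y2)
        = W.a₄ - 2 * W.slope x1 x2 y1 y2 * (y1 - W.slope x1 x2 y1 y2 * x1)
          - W.a₁ * (y1 - W.slope x1 x2 y1 y2 * x1) - W.a₃ * W.slope x1 x2 y1 y2 ∧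
      x1 * x2 * W.addX x1 x2 (W.slope x1 x2 y1 y2)
        = (y1 - W.slope x1 x2 y1 y2 * x1) ^ 2 + W.a₃ * (y1 - W.slope x1 x2 y1 y2 * x1) - W.a₆ := by
  have h := addPolynomial_slope h1 h2 hxy
  rw [addPolynomial_eq, neg_inj, Cubic.prod_X_sub_C_eq, Cubic.toPoly_injective] at h
  have hb := congrArg Cubic.b h
  have hc := congrArg Cubic.c h
  have hd := congrArg Cubic.d h
  simp only at hb hc hd
  refine ⟨?_, ?_, ?_⟩
  · simp only [addX]; ring
  · linear_combination -hc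
  · linear_combination hd

/-- the second point lies on the line -/
theorem line_right {x1 x2 y1 y2 : K} (h1 : W.Equation x1 y1) (h2 : W.Equation x2 y2)
    (hxy : ¬(x1 = x2 ∧ y1 = W.negY x2 y2)) :
    y2 = W.slope x1 x2 y1 y2 * x2 + (y1 - W.slope x1 x2 y1 y2 * x1) := by
  by_cases hx : x1 = x2
  · have hy : y1 ≠ W.negY x2 y2 := fun h => hxy ⟨hx, h⟩
    have := Y_eq_of_Y_ne h1 h2 hx hy
    rw [hx, this]; ring
  · rw [slope_of_X_ne hx]
    have : x1 - x2 ≠ 0 := sub_ne_zero.mpr hx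
    field_simp
    ring

/-- **The core**: two non-zero points of the kernel of reduction in general position. -/
theorem gen_core (hW : IntegralCoeffs W v) {x1 x2 y1 y2 : K} (h1 : W.Nonsingular x1 y1)
    (h2 : W.Nonsingular x2 y2) (hxy : ¬(x1 = x2 ∧ y1 = W.negY x2 y2))
    (hP : 1 < v x1) (hQ : 1 < v x2) :
    1 < v (W.addX x1 x2 (W.slope x1 x2 y1 y2)) ∧
      v (-(W.addX x1 x2 (W.slope x1 x2 y1 y2)) / (W.addY x1 x2 y1 (W.slope x1 x2 y1 y2))
          - -x1 / y1 - -x2 / y2) ≤ max (v (-x1 / y1)) (v (-x2 / y2)) ^ 2 := by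
  obtain ⟨ha1, ha2, ha3, ha4, ha6⟩ := hW
  have hc1 := eqn h1
  have hc2 := eqn h2
  obtain ⟨hV1, hV2, hV3⟩ := vieta h1.left h2.left hxy
  have hl2 := line_right h1.left h2.left hxy
  set L := W.slope x1 x2 y1 y2 with hLdef
  set ν := y1 - L * x1 with hνdef
  set x3 := W.addX x1 x2 L with hx3def
  have hl1 : y1 = L * x1 + ν := by rw [hνdef]; ring
  obtain ⟨hx10, hy10, hz1, hw1, e1⟩ := point_zw v ha1 ha2 ha3 ha4 ha6 hP hc1
  obtain ⟨hx20, hy20, hz2, hw2, e2⟩ := point_zw v ha1 ha2 ha3 ha4 ha6 hQ hc2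
  have hLUN : L * (1 - W.a₁ * (-x1 / y1) - W.a₂ * (-x1 / y1) ^ 2 - W.a₃ * (-1 / y1 + -1 / y2)
        - W.a₄ * (-x1 / y1) * (-1 / y1 + -1 / y2)
        - W.a₆ * ((-1 / y1) ^ 2 + (-1 / y1) * (-1 / y2) + (-1 / y2) ^ 2))
      + ν * ((-x2 / y2) ^ 2 + (-x1 / y1) * (-x2 / y2) + (-x1 / y1) ^ 2 + W.a₁ * (-1 / y2)
        + W.a₂ * (-x1 / y1 + -x2 / y2) * (-1 / y2) + W.a₄ * (-1 / y2) ^ 2) = 0 := by
    by_cases hx : x1 = x2
    · have hy : y1 ≠ W.negY x2 y2 := fun h => hxy ⟨hx, h⟩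
      have hyy := Y_eq_of_Y_ne h1.left h2.left hx hy
      subst hx
      subst hyy
      have hden : y1 - W.negY x1 y1 ≠ 0 := sub_ne_zero.mpr hy
      have hL : L * (2 * y1 + W.a₁ * x1 + W.a₃)
          = 3 * x1 ^ 2 + 2 * W.a₂ * x1 + W.a₄ - W.a₁ * y1 := by
        rw [hLdef, slope_of_Y_ne rfl hy]
        have : 2 * y1 + W.a₁ * x1 + W.a₃ = y1 - W.negY x1 y1 := by simp only [negY]; ring
        rw [this, div_mul_cancel₀ _ hden]
      exact lun_tangent hy10 hc1 hL
    · refine lun_chord e1 e2 ?_ ?_ ?_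
      · field_simp
        linear_combination hl1
      · field_simp
        linear_combination hl2
      · intro hzz
        have hdd := divided_difference e1 e2
        rw [hzz, sub_self, zero_mul] at hdd
        have hw1' : v (-1 / y1) < 1 := by
          rw [hw1]; exact pow_lt_one₀ zero_le hz1 (by norm_num)
        have hw2' : v (-1 / y2) < 1 := by
          rw [hw2]; exact pow_lt_one₀ zero_le hz2 (by norm_num)
        have hU := v_Udd v ha1 ha2 ha3 ha4 ha6 hz2 hw1' hw2'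
        have hU0 := ne_zero_of_v_eq_one v hU
        have hww : -1 / y2 - -1 / y1 = 0 := (mul_eq_zero.mp hdd).resolve_right hU0
        have hyy : y1 = y2 := by
          field_simp at hww
          linear_combination -hww
        apply hx
        rw [hyy] at hzz
        field_simp at hzz
        linear_combination -hzz
  obtain ⟨y3, z3, hy3, hy30, hz3d, hz30, hz3m, hw3m, hs, hx3⟩ :=
    core_xy v ha1 ha2 ha3 ha4 ha6 hP hQ hc1 hc2 hl1 hl2 hLUN hV1 hV2 hV3
  have hmlt : max (v (-x1 / y1)) (v (-x2 / y2)) < 1 := max_lt hz1 hz2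
  have hvz0 : v z3 ≠ 0 := (v.ne_zero_iff).mpr hz30
  have hz3lt : v z3 < 1 := lt_of_le_of_lt hz3m hmlt
  have hm31 : max (v (-x1 / y1)) (v (-x2 / y2)) ^ 3 ≤ max (v (-x1 / y1)) (v (-x2 / y2)) := by
    calc _ ≤ max (v (-x1 / y1)) (v (-x2 / y2)) ^ 1 :=
          pow_le_pow_of_le_one_G hmlt.le (by norm_num)
      _ = _ := pow_one _
  obtain ⟨hu, hfin⟩ := final_estimate v ha1 ha3 hmlt (le_max_left _ _) (le_max_right _ _) hz3m
    (hw3m.trans hm31) hs
  have hu0 := ne_zero_of_v_eq_one v hu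
  constructor
  · have : v x3 = (v z3 ^ 2)⁻¹ := eq_inv_of_mul_eq_one_left hx3
    rw [this]
    refine (one_lt_inv₀ (pow_pos (zero_lt_iff.mpr hvz0) 2)).mpr ?_
    exact pow_lt_one₀ zero_le hz3lt two_ne_zero
  · have hzc3 : -x3 / W.addY x1 x2 y1 L = -z3 / (1 - W.a₁ * z3 - W.a₃ * (-1 / y3)) := by
      have hx3' : x3 = -z3 * y3 := by
        rw [hz3d]
        field_simp
      have hY : W.addY x1 x2 y1 L = -y3 * (1 - W.a₁ * z3 - W.a₃ * (-1 / y3)) := by
        have : W.addY x1 x2 y1 L = -y3 - W.a₁ * x3 - W.a₃ := by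
          simp only [addY, negY, negAddY, ← hx3def]
          rw [hy3, hνdef]; ring
        rw [this, hx3']
        field_simp
        ring
      have hY0 : -y3 * (1 - W.a₁ * z3 - W.a₃ * (-1 / y3)) ≠ 0 :=
        mul_ne_zero (neg_ne_zero.mpr hy30) hu0
      rw [hY, div_eq_div_iff hY0 hu0, hx3']
      ring
    rw [hzc3]
    exact hfin

/-! ### Single points -/

/-- **Point facts** for a non-zero point of the kernel of reduction. -/
theorem point_facts (hW : IntegralCoeffs W v) {x y : K} (h : W.Nonsingular x y)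
    (hX : 1 < v x) :
    x ≠ 0 ∧ y ≠ 0 ∧ v (-x / y) < 1 ∧ -x / y ≠ 0 ∧ v (-1 / y) = v (-x / y) ^ 3 ∧
      v x * v (-x / y) ^ 2 = 1 := by
  obtain ⟨ha1, ha2, ha3, ha4, ha6⟩ := hW
  obtain ⟨hx0, hy0, hz, hw, -⟩ := point_zw v ha1 ha2 ha3 ha4 ha6 hX (eqn h)
  have hz0 : -x / y ≠ 0 := div_ne_zero (neg_ne_zero.mpr hx0) hy0
  have hvz0 : v (-x / y) ≠ 0 := (v.ne_zero_iff).mpr hz0
  refine ⟨hx0, hy0, hz, hz0, hw, ?_⟩
  have hx : v x = v (-x / y) / v (-1 / y) := by
    rw [← map_div₀, div_div_div_cancel_right₀ hy0, neg_div_neg_eq, div_one]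
  rw [hx, hw, div_mul_eq_mul_div, div_eq_one_iff_eq (pow_ne_zero 3 hvz0), ← pow_succ']

theorem v_zc_lt_one (hW : IntegralCoeffs W v) {P : W.Point} (hP : InKer W v P) :
    v (zc W P) < 1 := by
  rcases P with _ | ⟨x, y, h⟩
  · change v 0 < 1
    rw [map_zero]; exact zero_lt_one
  · exact (point_facts hW h hP).2.2.1

theorem zc_ne_zero (hW : IntegralCoeffs W v) {P : W.Point} (hP : InKer W v P) (hP0 : P ≠ 0) :
    zc W P ≠ 0 := by
  rcases P with _ | ⟨x, y, h⟩
  · exact absurd rfl hP0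
  · exact (point_facts hW h hP).2.2.2.1

theorem inKer_neg {P : W.Point} (hP : InKer W v P) : InKer W v (-P) := by
  rcases P with _ | ⟨x, y, h⟩
  · exact trivial
  · exact hP

/-- `zc (-P)` versus `zc P` on the kernel of reduction. -/
theorem zc_neg (hW : IntegralCoeffs W v) {P : W.Point} (hP : InKer W v P) :
    v (zc W (-P)) = v (zc W P) ∧ v (0 - zc W P - zc W (-P)) ≤ v (zc W P) ^ 2 := by
  rcases P with _ | ⟨x, y, h⟩
  · change v 0 = v 0 ∧ v (0 - 0 - 0) ≤ v 0 ^ 2
    simp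
  · obtain ⟨hx0, hy0, hz, hz0, hw, -⟩ := point_facts hW h hP
    have hwz : v (-1 / y) ≤ v (-x / y) := by
      rw [hw]
      calc v (-x / y) ^ 3 ≤ v (-x / y) ^ 1 := pow_le_pow_of_le_one_G hz.le (by norm_num)
        _ = _ := pow_one _
    obtain ⟨hu, hv, hest⟩ := neg_estimate v hW.a1 hW.a3 hz hwz
    have hu0 := ne_zero_of_v_eq_one v hu
    have hzn : zc W (-Point.some x y h) = -(-x / y) / (1 - W.a₁ * (-x / y) - W.a₃ * (-1 / y)) := by
      rw [Point.neg_some, zc_some]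
      have hden : W.negY x y = -y * (1 - W.a₁ * (-x / y) - W.a₃ * (-1 / y)) := by
        simp only [negY]
        field_simp
        ring
      have hden0 : -y * (1 - W.a₁ * (-x / y) - W.a₃ * (-1 / y)) ≠ 0 :=
        mul_ne_zero (neg_ne_zero.mpr hy0) hu0
      rw [hden, div_eq_div_iff hden0 hu0]
      field_simp
    rw [hzn, zc_some]
    exact ⟨hv, hest⟩

/-! ### The group statements -/

/-- **The kernel of reduction is closed under addition, with the formal group law to first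
order.** -/
theorem add_core (hW : IntegralCoeffs W v) {P Q : W.Point} (hP : InKer W v P)
    (hQ : InKer W v Q) :
    InKer W v (P + Q) ∧
      v (zc W (P + Q) - zc W P - zc W Q) ≤ max (v (zc W P)) (v (zc W Q)) ^ 2 := by
  rcases P with _ | ⟨x1, y1, h1⟩
  · change InKer W v (0 + Q) ∧ v (zc W (0 + Q) - 0 - zc W Q) ≤ _
    rw [zero_add, sub_zero, sub_self, map_zero]
    exact ⟨hQ, zero_le⟩
  rcases Q with _ | ⟨x2, y2, h2⟩
  · change InKer W v (Point.some x1 y1 h1 + 0)
      ∧ v (zc W (Point.some x1 y1 h1 + 0) - zc W (Point.some x1 y1 h1) - 0) ≤ _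
    rw [add_zero, sub_zero, sub_self, map_zero]
    exact ⟨hP, zero_le⟩
  by_cases hxy : x1 = x2 ∧ y1 = W.negY x2 y2
  · have hneg : Point.some x2 y2 h2 = -Point.some x1 y1 h1 := by
      rw [Point.neg_some]
      obtain ⟨rfl, rfl⟩ := hxy
      simp only [negY_negY]
    rw [Point.add_of_Y_eq hxy.1 hxy.2]
    refine ⟨trivial, ?_⟩
    obtain ⟨-, hest⟩ := zc_neg hW hP
    rw [hneg, zc_zero]
    exact hest.trans (pow_le_pow_left' (le_max_left _ _) 2)
  · rw [Point.add_some hxy]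
    obtain ⟨hk, hest⟩ := gen_core hW h1 h2 hxy hP hQ
    exact ⟨hk, hest⟩

theorem inKer_add (hW : IntegralCoeffs W v) {P Q : W.Point} (hP : InKer W v P)
    (hQ : InKer W v Q) : InKer W v (P + Q) :=
  (add_core hW hP hQ).1

theorem v_zc_add_sub_le (hW : IntegralCoeffs W v) {P Q : W.Point} (hP : InKer W v P)
    (hQ : InKer W v Q) :
    v (zc W (P + Q) - zc W P - zc W Q) ≤ max (v (zc W P)) (v (zc W Q)) ^ 2 :=
  (add_core hW hP hQ).2

theorem inKer_nsmul (hW : IntegralCoeffs W v) {P : W.Point} (hP : InKer W v P) (n : ℕ) :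
    InKer W v (n • P) := by
  induction n with
  | zero => rw [zero_smul]; exact inKer_zero
  | succ n ih => rw [succ_nsmul]; exact inKer_add hW ih hP

theorem inKer_sub (hW : IntegralCoeffs W v) {P Q : W.Point} (hP : InKer W v P)
    (hQ : InKer W v Q) : InKer W v (P - Q) := by
  rw [sub_eq_add_neg]; exact inKer_add hW hP (inKer_neg hQ)

/-- `zc (n • P) ≡ n zc P` modulo `zc P ^ 2`. -/
theorem v_zc_nsmul_sub_le (hW : IntegralCoeffs W v) {P : W.Point} (hP : InKer W v P) (n : ℕ) :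
    v (zc W (n • P) - n * zc W P) ≤ v (zc W P) ^ 2 := by
  have hz1 : v (zc W P) ≤ 1 := (v_zc_lt_one hW hP).le
  have hz21 : v (zc W P) ^ 2 ≤ v (zc W P) := by
    calc _ ≤ v (zc W P) ^ 1 := pow_le_pow_of_le_one_G hz1 (by norm_num)
      _ = _ := pow_one _
  induction n with
  | zero => rw [zero_smul, zc_zero, Nat.cast_zero, zero_mul, sub_zero, map_zero]; exact zero_le
  | succ n ih =>
    have hn : v (zc W (n • P)) ≤ v (zc W P) := by
      have : zc W (n • P) = (zc W (n • P) - n * zc W P) + n * zc W P := by ring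
      rw [this]
      exact v.map_add_le (ih.trans hz21) (v_mul_le v (v_natCast_le v n) le_rfl)
    have hadd := v_zc_add_sub_le hW (inKer_nsmul hW hP n) hP
    rw [max_eq_right hn] at hadd
    have : zc W ((n + 1) • P) - ((n + 1 : ℕ) : K) * zc W P
        = (zc W (n • P + P) - zc W (n • P) - zc W P) + (zc W (n • P) - n * zc W P) := by
      rw [succ_nsmul, Nat.cast_succ]; ring
    rw [this]
    exact v.map_add_le hadd ih

/-- **No `n`-torsion in the kernel of reduction when `n` is a unit.** -/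
theorem nsmul_ne_zero_of_inKer (hW : IntegralCoeffs W v) {P : W.Point} (hP : InKer W v P)
    (hP0 : P ≠ 0) {n : ℕ} (hn : v (n : K) = 1) : n • P ≠ 0 := by
  intro h0
  have hz := v_zc_lt_one hW hP
  have hz0 := zc_ne_zero hW hP hP0
  have h := v_zc_nsmul_sub_le hW hP n
  rw [h0, zc_zero, zero_sub, Valuation.map_neg, map_mul, hn, one_mul] at h
  have hvz0 : 0 < v (zc W P) := zero_lt_iff.mpr ((v.ne_zero_iff).mpr hz0)
  have : v (zc W P) ^ 2 < v (zc W P) := by
    calc v (zc W P) ^ 2 = v (zc W P) * v (zc W P) := pow_two _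
      _ < v (zc W P) * 1 := mul_lt_mul_of_pos_left hz hvz0
      _ = v (zc W P) := mul_one _
  exact absurd h (not_le.mpr this)

end Fermat.Agent.S58.Red.Kernel
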