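import Mathlib

/-!
# S58 scratch, block (E2) RedInj, part 3: the residue relation of a valuation subring

`A : ValuationSubring K`, `k = IsLocalRing.ResidueField A`.  `RedTo A x xb` says that `x ∈ A` and
that the residue class of `x` is `xb`.  The relation is closed under the ring operations, and under
inversion of elements with nonzero residue.  This relational style avoids subtype coercions in the
algebra of the reduction map.
-/

set_option autoImplicit false
set_option linter.unusedSectionVars false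

namespace Fermat.Agent.S58.Red.ResidueRel

variable {K : Type*} [Field K] (A : ValuationSubring K)

/-- `x ∈ A` has residue class `xb` -/
def RedTo (x : K) (xb : IsLocalRing.ResidueField A) : Prop :=
  ∃ h : x ∈ A, IsLocalRing.residue A ⟨x, h⟩ = xb

variable {A}

theorem redTo_of_mem {x : K} (h : x ∈ A) : RedTo A x (IsLocalRing.residue A ⟨x, h⟩) := ⟨h, rfl⟩

theorem exists_redTo {x : K} (h : x ∈ A) : ∃ xb, RedTo A x xb := ⟨_, redTo_of_mem h⟩

namespace RedTo

variable {x y : K} {xb yb : IsLocalRing.ResidueField A}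

theorem mem (h : RedTo A x xb) : x ∈ A := h.1

theorem v_le (h : RedTo A x xb) : A.valuation x ≤ 1 := (A.valuation_le_one_iff x).mpr h.1

theorem unique (h : RedTo A x xb) (h' : RedTo A x yb) : xb = yb := by
  obtain ⟨hx, rfl⟩ := h
  obtain ⟨hx', rfl⟩ := h'
  rfl

theorem zero : RedTo A (0 : K) 0 := ⟨A.zero_mem, map_zero _⟩

theorem one : RedTo A (1 : K) 1 := ⟨A.one_mem, map_one _⟩

theorem add (h : RedTo A x xb) (h' : RedTo A y yb) : RedTo A (x + y) (xb + yb) := by
  obtain ⟨hx, rfl⟩ := h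
  obtain ⟨hy, rfl⟩ := h'
  exact ⟨A.add_mem _ _ hx hy, map_add (IsLocalRing.residue A) ⟨x, hx⟩ ⟨y, hy⟩⟩

theorem mul (h : RedTo A x xb) (h' : RedTo A y yb) : RedTo A (x * y) (xb * yb) := by
  obtain ⟨hx, rfl⟩ := h
  obtain ⟨hy, rfl⟩ := h'
  exact ⟨A.mul_mem _ _ hx hy, map_mul (IsLocalRing.residue A) ⟨x, hx⟩ ⟨y, hy⟩⟩

theorem neg (h : RedTo A x xb) : RedTo A (-x) (-xb) := by
  obtain ⟨hx, rfl⟩ := h
  exact ⟨A.neg_mem _ hx, map_neg (IsLocalRing.residue A) ⟨x, hx⟩⟩

theorem sub (h : RedTo A x xb) (h' : RedTo A y yb) : RedTo A (x - y) (xb - yb) := by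
  rw [sub_eq_add_neg, sub_eq_add_neg]; exact h.add h'.neg

theorem pow (h : RedTo A x xb) (n : ℕ) : RedTo A (x ^ n) (xb ^ n) := by
  induction n with
  | zero => rw [pow_zero, pow_zero]; exact one
  | succ n ih => rw [pow_succ, pow_succ]; exact ih.mul h

theorem natCast (n : ℕ) : RedTo A (n : K) (n : IsLocalRing.ResidueField A) := by
  induction n with
  | zero => rw [Nat.cast_zero, Nat.cast_zero]; exact zero
  | succ n ih => rw [Nat.cast_succ, Nat.cast_succ]; exact ih.add one

theorem two : RedTo A (2 : K) 2 := by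
  have h := natCast (A := A) 2
  rwa [Nat.cast_ofNat, Nat.cast_ofNat] at h

theorem three : RedTo A (3 : K) 3 := by
  have h := natCast (A := A) 3
  rwa [Nat.cast_ofNat, Nat.cast_ofNat] at h

/-- the residue class vanishes iff the valuation is `< 1` -/
theorem eq_zero_iff (h : RedTo A x xb) : xb = 0 ↔ A.valuation x < 1 := by
  obtain ⟨hx, rfl⟩ := h
  rw [IsLocalRing.residue_eq_zero_iff, A.valuation_lt_one_iff]

theorem ne_zero_iff (h : RedTo A x xb) : xb ≠ 0 ↔ A.valuation x = 1 := by
  rw [Ne, h.eq_zero_iff, not_lt]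
  exact ⟨fun h1 => le_antisymm h.v_le h1, fun h1 => h1.ge⟩

theorem v_eq_one (h : RedTo A x xb) (h0 : xb ≠ 0) : A.valuation x = 1 := h.ne_zero_iff.mp h0

theorem v_lt_one (h : RedTo A x 0) : A.valuation x < 1 := h.eq_zero_iff.mp rfl

theorem of_v_lt_one (h : A.valuation x < 1) : RedTo A x 0 := by
  have hx : x ∈ A := (A.valuation_le_one_iff x).mp h.le
  exact ⟨hx, (IsLocalRing.residue_eq_zero_iff _).mpr ((A.valuation_lt_one_iff ⟨x, hx⟩).mpr h)⟩

theorem ne_zero_of_ne_zero (h : RedTo A x xb) (h0 : xb ≠ 0) : x ≠ 0 := by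
  rintro rfl
  exact h0 (h.unique zero)

/-- inversion of elements with nonzero residue -/
theorem inv (h : RedTo A x xb) (h0 : xb ≠ 0) : RedTo A x⁻¹ xb⁻¹ := by
  have hv := h.v_eq_one h0
  have hx0 := h.ne_zero_of_ne_zero h0
  have hinv : x⁻¹ ∈ A := by
    rw [← A.valuation_le_one_iff, map_inv₀, hv, inv_one]
  obtain ⟨yb, hy⟩ := exists_redTo hinv
  have h1 : xb * yb = 1 := by
    have := h.mul hy
    rw [mul_inv_cancel₀ hx0] at this
    exact this.unique one
  have : yb = xb⁻¹ := eq_inv_of_mul_eq_one_right h1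
  rwa [this] at hy

theorem div (h : RedTo A x xb) (h' : RedTo A y yb) (h0 : yb ≠ 0) : RedTo A (x / y) (xb / yb) := by
  rw [div_eq_mul_inv, div_eq_mul_inv]; exact h.mul (h'.inv h0)

end RedTo

/-- equality of residues means congruence -/
theorem v_sub_lt_one {x y : K} {xb : IsLocalRing.ResidueField A} (h : RedTo A x xb)
    (h' : RedTo A y xb) : A.valuation (x - y) < 1 := by
  have := h.sub h'
  rw [sub_self] at this
  exact this.v_lt_one

end Fermat.Agent.S58.Red.ResidueRel
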