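import Mathlib
import Fermat.Agent.S58.Red.Kernel
import Fermat.Agent.S58.Red.ResidueRel

/-!
# S58 scratch, block (E2) RedInj, part 4: reduction of the chord-tangent formulas

`A : ValuationSubring K`, `W` a Weierstrass curve over `K` whose coefficients lie in `A` and reduce
to those of `Wk` over the residue field, `Wk.Δ ≠ 0` (good reduction).

* `y_mem` : integral `x` forces integral `y`;
* `equation_red`, `negY_red`;
* `slope_red`, `add_red` : if the reductions of two integral points are not opposite, the slope,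
  and hence the sum, reduce to the slope and the sum of the reductions;
* `add_inKer` : if the reductions are opposite, the sum lies in the kernel of reduction.
-/

set_option autoImplicit false
set_option linter.unusedSectionVars false

namespace Fermat.Agent.S58.Red.CurveRed

open WeierstrassCurve WeierstrassCurve.Affine
open Fermat.Agent.S58.Red.ResidueRel Fermat.Agent.S58.Red.Kernel Fermat.Agent.S58.Red.KernelAlg

/-! ### A field lemma on the slope -/

section Field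

variable {F : Type*} [Field F] [DecidableEq F] {W : Affine F}

/-- The two expressions of the slope, uniformly for chords and tangents. -/
theorem slope_mul {x1 x2 y1 y2 : F} (h1 : W.Equation x1 y1) (h2 : W.Equation x2 y2)
    (hxy : ¬(x1 = x2 ∧ y1 = W.negY x2 y2)) :
    W.slope x1 x2 y1 y2 * (x1 - x2) = y1 - y2 ∧
      W.slope x1 x2 y1 y2 * (y1 - W.negY x2 y2)
        = x1 ^ 2 + x1 * x2 + x2 ^ 2 + W.a₂ * (x1 + x2) + W.a₄ - W.a₁ * y1 := by
  by_cases hx : x1 = x2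
  · have hy : y1 ≠ W.negY x2 y2 := fun h => hxy ⟨hx, h⟩
    have hyy := Y_eq_of_Y_ne h1 h2 hx hy
    subst hx
    subst hyy
    have hden : y1 - W.negY x1 y1 ≠ 0 := sub_ne_zero.mpr hy
    rw [slope_of_Y_ne rfl hy, div_mul_cancel₀ _ hden]
    constructor
    · ring
    · ring
  · have hden : x1 - x2 ≠ 0 := sub_ne_zero.mpr hx
    rw [slope_of_X_ne hx, div_mul_cancel₀ _ hden]
    refine ⟨rfl, ?_⟩
    rw [div_mul_eq_mul_div, div_eq_iff hden]
    have e1 := (W.equation_iff x1 y1).mp h1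
    have e2 := (W.equation_iff x2 y2).mp h2
    simp only [negY]
    linear_combination e1 - e2

end Field

variable {K : Type*} [Field K] [DecidableEq K] (A : ValuationSubring K)
  [DecidableEq (IsLocalRing.ResidueField A)]
  (W : Affine K) (Wk : Affine (IsLocalRing.ResidueField A))

/-- `Wk` is the reduction of `W`, and the reduction is good -/
structure IsRed : Prop where
  a1 : RedTo A W.a₁ Wk.a₁
  a2 : RedTo A W.a₂ Wk.a₂
  a3 : RedTo A W.a₃ Wk.a₃
  a4 : RedTo A W.a₄ Wk.a₄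
  a6 : RedTo A W.a₆ Wk.a₆
  disc : Wk.Δ ≠ 0

variable {A W Wk}

theorem IsRed.integralCoeffs (h : IsRed A W Wk) : IntegralCoeffs W A.valuation :=
  ⟨h.a1.v_le, h.a2.v_le, h.a3.v_le, h.a4.v_le, h.a6.v_le⟩

/-- integral `x` forces integral `y` -/
theorem y_mem (h : IsRed A W Wk) {x y : K} (he : W.Equation x y) (hx : x ∈ A) : y ∈ A := by
  rw [← A.valuation_le_one_iff] at hx ⊢
  by_contra hy
  rw [not_le] at hy
  have e := (W.equation_iff x y).mp he
  have hy2 : y ^ 2 = (x ^ 3 + W.a₂ * x ^ 2 + W.a₄ * x + W.a₆) - W.a₁ * x * y - W.a₃ * y := by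
    linear_combination e
  have hle : A.valuation (y ^ 2) ≤ A.valuation y := by
    rw [hy2]
    refine Valuation.map_sub_le _ (Valuation.map_sub_le _ ?_ ?_) ?_
    · refine le_trans ?_ hy.le
      refine Valuation.map_add_le _ (Valuation.map_add_le _ (Valuation.map_add_le _ ?_ ?_) ?_)
        h.a6.v_le
      · rw [map_pow]; exact pow_le_one' hx 3
      · refine v_mul_le _ h.a2.v_le ?_
        rw [map_pow]; exact pow_le_one' hx 2
      · exact v_mul_le _ h.a4.v_le hx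
    · rw [mul_assoc]
      exact v_mul_le _ h.a1.v_le (v_mul_le _ hx le_rfl)
    · exact v_mul_le _ h.a3.v_le le_rfl
  have hlt : A.valuation y < A.valuation (y ^ 2) := by
    rw [map_pow, pow_two]
    calc A.valuation y = A.valuation y * 1 := (mul_one _).symm
      _ < A.valuation y * A.valuation y :=
        mul_lt_mul_of_pos_left hy (lt_trans zero_lt_one hy)
  exact absurd hle (not_le.mpr hlt)

variable {x y x1 x2 y1 y2 L : K} {xb yb xb1 xb2 yb1 yb2 Lb : IsLocalRing.ResidueField A}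

theorem equation_red (h : IsRed A W Wk) (he : W.Equation x y) (hx : RedTo A x xb)
    (hy : RedTo A y yb) : Wk.Equation xb yb := by
  rw [equation_iff] at he ⊢
  have hl : RedTo A (y ^ 2 + W.a₁ * x * y + W.a₃ * y) (yb ^ 2 + Wk.a₁ * xb * yb + Wk.a₃ * yb) :=
    ((hy.pow 2).add ((h.a1.mul hx).mul hy)).add (h.a3.mul hy)
  have hr : RedTo A (x ^ 3 + W.a₂ * x ^ 2 + W.a₄ * x + W.a₆)
      (xb ^ 3 + Wk.a₂ * xb ^ 2 + Wk.a₄ * xb + Wk.a₆) :=
    (((hx.pow 3).add (h.a2.mul (hx.pow 2))).add (h.a4.mul hx)).add h.a6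
  rw [he] at hl
  exact hl.unique hr

theorem nonsingular_red (h : IsRed A W Wk) (he : W.Equation x y) (hx : RedTo A x xb)
    (hy : RedTo A y yb) : Wk.Nonsingular xb yb :=
  (equation_iff_nonsingular_of_Δ_ne_zero h.disc).mp (equation_red h he hx hy)

theorem negY_red (h : IsRed A W Wk) (hx : RedTo A x xb) (hy : RedTo A y yb) :
    RedTo A (W.negY x y) (Wk.negY xb yb) := by
  simp only [negY]
  exact (hy.neg.sub (h.a1.mul hx)).sub h.a3

/-- opposite points have opposite reductions -/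
theorem not_opp_of_red (h : IsRed A W Wk) (hx1 : RedTo A x1 xb1) (hy1 : RedTo A y1 yb1)
    (hx2 : RedTo A x2 xb2) (hy2 : RedTo A y2 yb2)
    (hne : ¬(xb1 = xb2 ∧ yb1 = Wk.negY xb2 yb2)) : ¬(x1 = x2 ∧ y1 = W.negY x2 y2) := by
  rintro ⟨rfl, rfl⟩
  exact hne ⟨hx1.unique hx2, hy1.unique (negY_red h hx2 hy2)⟩

/-- **The slope reduces** when the reductions are not opposite. -/
theorem slope_red (h : IsRed A W Wk) (he1 : W.Equation x1 y1) (he2 : W.Equation x2 y2)
    (hx1 : RedTo A x1 xb1) (hy1 : RedTo A y1 yb1) (hx2 : RedTo A x2 xb2) (hy2 : RedTo A y2 yb2)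
    (hne : ¬(xb1 = xb2 ∧ yb1 = Wk.negY xb2 yb2)) :
    RedTo A (W.slope x1 x2 y1 y2) (Wk.slope xb1 xb2 yb1 yb2) := by
  have hxy := not_opp_of_red h hx1 hy1 hx2 hy2 hne
  obtain ⟨hB, hD⟩ := slope_mul he1 he2 hxy
  obtain ⟨hBb, hDb⟩ := slope_mul (equation_red h he1 hx1 hy1) (equation_red h he2 hx2 hy2) hne
  by_cases hxb : xb1 = xb2
  · have hyb : yb1 ≠ Wk.negY xb2 yb2 := fun h' => hne ⟨hxb, h'⟩
    have hDb0 : yb1 - Wk.negY xb2 yb2 ≠ 0 := sub_ne_zero.mpr hyb
    have hDred : RedTo A (y1 - W.negY x2 y2) (yb1 - Wk.negY xb2 yb2) :=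
      hy1.sub (negY_red h hx2 hy2)
    have hD0 : y1 - W.negY x2 y2 ≠ 0 := hDred.ne_zero_of_ne_zero hDb0
    have hNred : RedTo A (x1 ^ 2 + x1 * x2 + x2 ^ 2 + W.a₂ * (x1 + x2) + W.a₄ - W.a₁ * y1)
        (xb1 ^ 2 + xb1 * xb2 + xb2 ^ 2 + Wk.a₂ * (xb1 + xb2) + Wk.a₄ - Wk.a₁ * yb1) :=
      (((((hx1.pow 2).add (hx1.mul hx2)).add (hx2.pow 2)).add (h.a2.mul (hx1.add hx2))).add
        h.a4).sub (h.a1.mul hy1)
    have hL : W.slope x1 x2 y1 y2 = (x1 ^ 2 + x1 * x2 + x2 ^ 2 + W.a₂ * (x1 + x2) + W.a₄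
        - W.a₁ * y1) / (y1 - W.negY x2 y2) := by
      rw [eq_div_iff hD0]; exact hD
    have hLb : Wk.slope xb1 xb2 yb1 yb2 = (xb1 ^ 2 + xb1 * xb2 + xb2 ^ 2 + Wk.a₂ * (xb1 + xb2)
        + Wk.a₄ - Wk.a₁ * yb1) / (yb1 - Wk.negY xb2 yb2) := by
      rw [eq_div_iff hDb0]; exact hDb
    rw [hL, hLb]
    exact hNred.div hDred hDb0
  · have hBb0 : xb1 - xb2 ≠ 0 := sub_ne_zero.mpr hxb
    have hBred : RedTo A (x1 - x2) (xb1 - xb2) := hx1.sub hx2
    have hB0 : x1 - x2 ≠ 0 := hBred.ne_zero_of_ne_zero hBb0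
    have hL : W.slope x1 x2 y1 y2 = (y1 - y2) / (x1 - x2) := by
      rw [eq_div_iff hB0]; exact hB
    have hLb : Wk.slope xb1 xb2 yb1 yb2 = (yb1 - yb2) / (xb1 - xb2) := by
      rw [eq_div_iff hBb0]; exact hBb
    rw [hL, hLb]
    exact (hy1.sub hy2).div hBred hBb0

theorem addX_red (h : IsRed A W Wk) (hx1 : RedTo A x1 xb1) (hx2 : RedTo A x2 xb2)
    (hL : RedTo A L Lb) : RedTo A (W.addX x1 x2 L) (Wk.addX xb1 xb2 Lb) := by
  simp only [addX]
  exact (((hL.pow 2).add (h.a1.mul hL)).sub h.a2).sub hx1 |>.sub hx2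

theorem addY_red (h : IsRed A W Wk) (hx1 : RedTo A x1 xb1) (hy1 : RedTo A y1 yb1)
    (hx2 : RedTo A x2 xb2) (hL : RedTo A L Lb) :
    RedTo A (W.addY x1 x2 y1 L) (Wk.addY xb1 xb2 yb1 Lb) := by
  have hX := addX_red h hx1 hx2 hL
  simp only [addY, negAddY]
  exact negY_red h hX ((hL.mul (hX.sub hx1)).add hy1)

/-- **The sum reduces** when the reductions are not opposite. -/
theorem add_red (h : IsRed A W Wk) (he1 : W.Equation x1 y1) (he2 : W.Equation x2 y2)
    (hx1 : RedTo A x1 xb1) (hy1 : RedTo A y1 yb1) (hx2 : RedTo A x2 xb2) (hy2 : RedTo A y2 yb2)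
    (hne : ¬(xb1 = xb2 ∧ yb1 = Wk.negY xb2 yb2)) :
    RedTo A (W.addX x1 x2 (W.slope x1 x2 y1 y2)) (Wk.addX xb1 xb2 (Wk.slope xb1 xb2 yb1 yb2)) ∧
      RedTo A (W.addY x1 x2 y1 (W.slope x1 x2 y1 y2))
        (Wk.addY xb1 xb2 yb1 (Wk.slope xb1 xb2 yb1 yb2)) := by
  have hL := slope_red h he1 he2 hx1 hy1 hx2 hy2 hne
  exact ⟨addX_red h hx1 hx2 hL, addY_red h hx1 hy1 hx2 hL⟩

/-- a large slope gives a point of the kernel of reduction -/
theorem one_lt_v_addX (h : IsRed A W Wk) (hx1 : x1 ∈ A) (hx2 : x2 ∈ A)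
    (hL : 1 < A.valuation L) : 1 < A.valuation (W.addX x1 x2 L) := by
  rw [← A.valuation_le_one_iff] at hx1 hx2
  have hL0 : (0 : A.ValueGroup) < A.valuation L := lt_trans zero_lt_one hL
  have hlt : A.valuation L < A.valuation (L ^ 2) := by
    rw [map_pow, pow_two]
    calc A.valuation L = A.valuation L * 1 := (mul_one _).symm
      _ < A.valuation L * A.valuation L := mul_lt_mul_of_pos_left hL hL0
  have hrest : A.valuation (W.a₁ * L - W.a₂ - x1 - x2) ≤ A.valuation L := by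
    refine Valuation.map_sub_le _ (Valuation.map_sub_le _ (Valuation.map_sub_le _ ?_ ?_) ?_) ?_
    · exact v_mul_le _ h.a1.v_le le_rfl
    · exact h.a2.v_le.trans hL.le
    · exact hx1.trans hL.le
    · exact hx2.trans hL.le
  have : W.addX x1 x2 L = L ^ 2 + (W.a₁ * L - W.a₂ - x1 - x2) := by simp only [addX]; ring
  rw [this, Valuation.map_add_eq_of_lt_left _ (lt_of_le_of_lt hrest hlt)]
  exact lt_trans hL hlt

/-- **Opposite reductions**: the sum lies in the kernel of reduction. -/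
theorem add_inKer (h : IsRed A W Wk) (he1 : W.Equation x1 y1) (he2 : W.Equation x2 y2)
    (hx1 : RedTo A x1 xb1) (hy1 : RedTo A y1 yb1) (hx2 : RedTo A x2 xb2) (hy2 : RedTo A y2 yb2)
    (hopp : xb1 = xb2 ∧ yb1 = Wk.negY xb2 yb2) (hxy : ¬(x1 = x2 ∧ y1 = W.negY x2 y2)) :
    1 < A.valuation (W.addX x1 x2 (W.slope x1 x2 y1 y2)) := by
  obtain ⟨hB, hD⟩ := slope_mul he1 he2 hxy
  obtain ⟨hxb, hyb⟩ := hopp
  have hns := nonsingular_red h he1 hx1 hy1
  rw [nonsingular_iff'] at hns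
  have hBred : RedTo A (x1 - x2) 0 := by
    have := hx1.sub hx2
    rwa [hxb, sub_self] at this
  have hDred : RedTo A (y1 - W.negY x2 y2) 0 := by
    have := hy1.sub (negY_red h hx2 hy2)
    rwa [hyb, sub_self] at this
  have hyb2 : yb2 = Wk.negY xb1 yb1 := by
    rw [hyb, hxb, negY_negY]
  have hAred : RedTo A (y1 - y2) (2 * yb1 + Wk.a₁ * xb1 + Wk.a₃) := by
    have := hy1.sub hy2
    have e : yb1 - yb2 = 2 * yb1 + Wk.a₁ * xb1 + Wk.a₃ := by
      rw [hyb2]; simp only [negY]; ring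
    rwa [e] at this
  have hNred : RedTo A (x1 ^ 2 + x1 * x2 + x2 ^ 2 + W.a₂ * (x1 + x2) + W.a₄ - W.a₁ * y1)
      (-(Wk.a₁ * yb1 - (3 * xb1 ^ 2 + 2 * Wk.a₂ * xb1 + Wk.a₄))) := by
    have := (((((hx1.pow 2).add (hx1.mul hx2)).add (hx2.pow 2)).add
      (h.a2.mul (hx1.add hx2))).add h.a4).sub (h.a1.mul hy1)
    have e : xb1 ^ 2 + xb1 * xb2 + xb2 ^ 2 + Wk.a₂ * (xb1 + xb2) + Wk.a₄ - Wk.a₁ * yb1
        = -(Wk.a₁ * yb1 - (3 * xb1 ^ 2 + 2 * Wk.a₂ * xb1 + Wk.a₄)) := by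
      rw [← hxb]; ring
    rwa [e] at this
  have key : ∀ {u s : K}, W.slope x1 x2 y1 y2 * s = u → A.valuation u = 1 →
      A.valuation s < 1 → 1 < A.valuation (W.slope x1 x2 y1 y2) := by
    intro u s hmul hu hs
    have hv := congrArg A.valuation hmul
    rw [map_mul, hu] at hv
    have hs0 : A.valuation s ≠ 0 := by
      intro h0
      rw [h0, mul_zero] at hv
      exact zero_ne_one hv
    have : A.valuation (W.slope x1 x2 y1 y2) = (A.valuation s)⁻¹ := eq_inv_of_mul_eq_one_left hv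
    rw [this]
    exact (one_lt_inv₀ (zero_lt_iff.mpr hs0)).mpr hs
  have hL : 1 < A.valuation (W.slope x1 x2 y1 y2) := by
    rcases hns.2 with hN | hY
    · exact key hD (hNred.v_eq_one (neg_ne_zero.mpr hN)) hDred.v_lt_one
    · exact key hB (hAred.v_eq_one hY) hBred.v_lt_one
  exact one_lt_v_addX h hx1.mem hx2.mem hL

end Fermat.Agent.S58.Red.CurveRed
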