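import Mathlib
import Fermat.Agent.S58.Red.CurveRed

/-!
# S58 scratch, block (E2) RedInj, part 5: the reduction map is a group homomorphism

`A : ValuationSubring K`, `h : IsRed A W Wk` (integral model with good reduction).

* `red h : W.Point → Wk.Point`, `red_eq_zero_iff : red h P = 0 ↔ InKer W A.valuation P`;
* `red_neg`, `red_add`, `redHom h : W.Point →+ Wk.Point`;
* `eq_zero_of_red_eq_zero_of_nsmul_eq_zero` : the reduction map is injective on `n`-torsion when
  `n` is a unit of `A`;
* `eq_of_red_eq_of_nsmul_eq_zero` : two `n`-torsion points with the same reduction are equal.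
-/

set_option autoImplicit false
set_option linter.unusedSectionVars false

namespace Fermat.Agent.S58.Red.Hom

open WeierstrassCurve WeierstrassCurve.Affine
open Fermat.Agent.S58.Red.ResidueRel Fermat.Agent.S58.Red.Kernel Fermat.Agent.S58.Red.CurveRed

variable {K : Type*} [Field K] [DecidableEq K] {A : ValuationSubring K}
  [DecidableEq (IsLocalRing.ResidueField A)]
  {W : Affine K} {Wk : Affine (IsLocalRing.ResidueField A)}

open Classical in
/-- the reduction map -/
noncomputable def red (h : IsRed A W Wk) : W.Point → Wk.Point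
  | .zero => 0
  | .some x y hxy =>
    if hx : x ∈ A then
      Point.some (IsLocalRing.residue A ⟨x, hx⟩)
        (IsLocalRing.residue A ⟨y, y_mem h hxy.left hx⟩)
        (nonsingular_red h hxy.left (redTo_of_mem hx) (redTo_of_mem (y_mem h hxy.left hx)))
    else 0

variable (h : IsRed A W Wk)

@[simp] theorem red_zero : red h 0 = 0 := rfl

theorem red_some_of_redTo {x y : K} (hxy : W.Nonsingular x y)
    {xb yb : IsLocalRing.ResidueField A} (hx : RedTo A x xb) (hy : RedTo A y yb) :
    red h (Point.some x y hxy) = Point.some xb yb (nonsingular_red h hxy.left hx hy) := by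
  obtain ⟨hx', rfl⟩ := hx
  obtain ⟨hy', rfl⟩ := hy
  simp only [red, dif_pos hx']

theorem red_some_of_not_mem {x y : K} (hxy : W.Nonsingular x y) (hx : x ∉ A) :
    red h (Point.some x y hxy) = 0 := by
  simp only [red, dif_neg hx]

theorem red_eq_zero_iff (P : W.Point) : red h P = 0 ↔ InKer W A.valuation P := by
  rcases P with _ | ⟨x, y, hxy⟩
  · exact ⟨fun _ => trivial, fun _ => rfl⟩
  · rw [inKer_some, ← not_le, A.valuation_le_one_iff]
    constructor
    · intro h0 hx
      rw [red_some_of_redTo h hxy (redTo_of_mem hx) (redTo_of_mem (y_mem h hxy.left hx))] at h0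
      exact Point.some_ne_zero _ h0
    · intro hx
      exact red_some_of_not_mem h hxy hx

/-- a point with nonzero reduction is an integral affine point -/
theorem exists_of_red_ne_zero {P : W.Point} (hP : red h P ≠ 0) :
    ∃ (x y : K) (hxy : W.Nonsingular x y) (xb yb : IsLocalRing.ResidueField A),
      P = Point.some x y hxy ∧ RedTo A x xb ∧ RedTo A y yb := by
  rcases P with _ | ⟨x, y, hxy⟩
  · exact absurd rfl hP
  · by_cases hx : x ∈ A
    · exact ⟨x, y, hxy, _, _, rfl, redTo_of_mem hx, redTo_of_mem (y_mem h hxy.left hx)⟩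
    · exact absurd (red_some_of_not_mem h hxy hx) hP

theorem red_neg (P : W.Point) : red h (-P) = -red h P := by
  by_cases hP : red h P = 0
  · rw [hP, neg_zero, red_eq_zero_iff]
    exact inKer_neg ((red_eq_zero_iff h P).mp hP)
  · obtain ⟨x, y, hxy, xb, yb, rfl, hx, hy⟩ := exists_of_red_ne_zero h hP
    rw [Point.neg_some, red_some_of_redTo h hxy hx hy, Point.neg_some,
      red_some_of_redTo h _ hx (negY_red h hx hy)]

/-- Step A: two points with nonzero reduction. -/
theorem red_add_of_ne_zero {P Q : W.Point} (hP : red h P ≠ 0) (hQ : red h Q ≠ 0) :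
    red h (P + Q) = red h P + red h Q := by
  obtain ⟨x1, y1, h1, xb1, yb1, rfl, hx1, hy1⟩ := exists_of_red_ne_zero h hP
  obtain ⟨x2, y2, h2, xb2, yb2, rfl, hx2, hy2⟩ := exists_of_red_ne_zero h hQ
  rw [red_some_of_redTo h h1 hx1 hy1, red_some_of_redTo h h2 hx2 hy2]
  by_cases hopp : xb1 = xb2 ∧ yb1 = Wk.negY xb2 yb2
  · rw [Point.add_of_Y_eq hopp.1 hopp.2]
    by_cases hxy : x1 = x2 ∧ y1 = W.negY x2 y2
    · rw [Point.add_of_Y_eq hxy.1 hxy.2]; rfl
    · rw [Point.add_some hxy, red_eq_zero_iff, inKer_some]
      exact add_inKer h h1.left h2.left hx1 hy1 hx2 hy2 hopp hxy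
  · have hxy := not_opp_of_red h hx1 hy1 hx2 hy2 hopp
    obtain ⟨hX, hY⟩ := add_red h h1.left h2.left hx1 hy1 hx2 hy2 hopp
    rw [Point.add_some hxy, Point.add_some hopp, red_some_of_redTo h _ hX hY]

/-- Step B: a point of the kernel of reduction does not change the reduction. -/
theorem red_add_of_eq_zero_left {P Q : W.Point} (hP : red h P = 0) :
    red h (P + Q) = red h Q := by
  have hPk := (red_eq_zero_iff h P).mp hP
  by_cases hQ : red h Q = 0
  · rw [hQ, red_eq_zero_iff]
    exact inKer_add h.integralCoeffs hPk ((red_eq_zero_iff h Q).mp hQ)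
  · have hR : red h (P + Q) ≠ 0 := by
      intro hR
      apply hQ
      rw [red_eq_zero_iff] at hR ⊢
      have : Q = (P + Q) - P := by abel
      rw [this]
      exact inKer_sub h.integralCoeffs hR hPk
    have hnQ : red h (-Q) ≠ 0 := by
      rw [red_neg]; exact neg_ne_zero.mpr hQ
    have hstep := red_add_of_ne_zero h hR hnQ
    have : P + Q + -Q = P := by abel
    rw [this, hP, red_neg] at hstep
    exact (add_neg_eq_zero.mp hstep.symm)

/-- **The reduction map is additive.** -/
theorem red_add (P Q : W.Point) : red h (P + Q) = red h P + red h Q := by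
  by_cases hP : red h P = 0
  · rw [red_add_of_eq_zero_left h hP, hP, zero_add]
  by_cases hQ : red h Q = 0
  · rw [add_comm P Q, red_add_of_eq_zero_left h hQ, hQ, add_zero]
  exact red_add_of_ne_zero h hP hQ

/-- the reduction homomorphism -/
noncomputable def redHom : W.Point →+ Wk.Point where
  toFun := red h
  map_zero' := red_zero h
  map_add' := red_add h

@[simp] theorem redHom_apply (P : W.Point) : redHom h P = red h P := rfl

/-- **Injectivity on prime-to-residue-characteristic torsion.** -/
theorem eq_zero_of_red_eq_zero_of_nsmul_eq_zero {P : W.Point} {n : ℕ}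
    (hn : A.valuation (n : K) = 1) (hnP : n • P = 0) (hP : red h P = 0) : P = 0 := by
  by_contra hP0
  exact nsmul_ne_zero_of_inKer h.integralCoeffs ((red_eq_zero_iff h P).mp hP) hP0 hn hnP

theorem eq_of_red_eq_of_nsmul_eq_zero {P Q : W.Point} {n : ℕ}
    (hn : A.valuation (n : K) = 1) (hnP : n • P = 0) (hnQ : n • Q = 0)
    (hPQ : red h P = red h Q) : P = Q := by
  have h0 : red h (P - Q) = 0 := by
    rw [sub_eq_add_neg, red_add, red_neg, hPQ, add_neg_cancel]
  have hn0 : n • (P - Q) = 0 := by rw [smul_sub, hnP, hnQ, sub_zero]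
  exact sub_eq_zero.mp (eq_zero_of_red_eq_zero_of_nsmul_eq_zero h hn hn0 h0)

end Fermat.Agent.S58.Red.Hom
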