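import Mathlib
import Fermat.Prelude.Def_FLTPrelim_Ramification
import Fermat.Agent.S58.Red.Hom

/-!
# S58 scratch, block (E2) RedInj, part 6: the decomposition group and the reduction map

`L / K0` a field extension, `A : ValuationSubring L`, `W'` a Weierstrass curve over a ring `R`
mapping to `K0`, `h : IsRed A (W'⁄L) Wk`.

* `redTo_smul` : for `σ` in the decomposition group, `RedTo A x xb → RedTo A (σ x) (σ̄ • xb)`;
* `redTo_of_mem_inertia` : for `σ` in the inertia group, `RedTo A x xb → RedTo A (σ x) xb`;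
* `red_smul_of_mem_inertia` : `red h (σ • P) = red h P` for `σ` in the inertia group;
* `smul_eq_of_mem_inertia` : **the inertia group acts trivially on the `n`-torsion points when `n`
  is a unit of `A`** (criterion of Néron–Ogg–Shafarevich, easy direction);
* `red_smul_some` : for `σ` in the decomposition group, the reduction of `σ • P` is obtained by
  applying `σ̄` to the coordinates of the reduction of `P`.
-/

set_option autoImplicit false
set_option linter.unusedSectionVars false

namespace Fermat.Agent.S58.Red.Galois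

open WeierstrassCurve WeierstrassCurve.Affine
open Fermat.Agent.S58.Red.ResidueRel Fermat.Agent.S58.Red.Kernel Fermat.Agent.S58.Red.CurveRed
  Fermat.Agent.S58.Red.Hom
open scoped Pointwise

section Field

variable {K0 L : Type*} [Field K0] [Field L] [Algebra K0 L] {A : ValuationSubring L}

theorem apply_mem_of_mem_decomposition {σ : L ≃ₐ[K0] L} (hσ : σ ∈ A.decompositionSubgroup K0)
    {x : L} (hx : x ∈ A) : σ x ∈ A := by
  have h1 : σ • A = A := hσ
  have h2 : σ x ∈ σ • A := ⟨x, hx, rfl⟩
  rwa [h1] at h2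

theorem apply_mem_iff_of_mem_decomposition {σ : L ≃ₐ[K0] L}
    (hσ : σ ∈ A.decompositionSubgroup K0) (x : L) : σ x ∈ A ↔ x ∈ A := by
  refine ⟨fun hx => ?_, apply_mem_of_mem_decomposition hσ⟩
  have := apply_mem_of_mem_decomposition ((A.decompositionSubgroup K0).inv_mem hσ) hx
  have e : σ⁻¹ (σ x) = x := σ.symm_apply_apply x
  rwa [e] at this

theorem redTo_smul {σ : L ≃ₐ[K0] L} (hσ : σ ∈ A.decompositionSubgroup K0) {x : L}
    {xb : IsLocalRing.ResidueField A} (h : RedTo A x xb) :
    RedTo A (σ x) ((⟨σ, hσ⟩ : A.decompositionSubgroup K0) • xb) := by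
  obtain ⟨hx, rfl⟩ := h
  refine ⟨apply_mem_of_mem_decomposition hσ hx, ?_⟩
  rw [← IsLocalRing.ResidueField.residue_smul]
  rfl

theorem redTo_of_mem_inertia {σ : L ≃ₐ[K0] L} (hσ : σ ∈ A.inertiaSubgroupIn K0) {x : L}
    {xb : IsLocalRing.ResidueField A} (h : RedTo A x xb) : RedTo A (σ x) xb := by
  obtain ⟨τ, hτ, rfl⟩ := hσ
  have hfix : τ • xb = xb := by
    have h1 : MulSemiringAction.toRingAut (A.decompositionSubgroup K0)
        (IsLocalRing.ResidueField A) τ = 1 := hτ
    have h2 := congrArg (fun f : RingAut (IsLocalRing.ResidueField A) => f xb) h1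
    exact h2
  have := redTo_smul τ.2 h
  rwa [show (⟨(τ : L ≃ₐ[K0] L), τ.2⟩ : A.decompositionSubgroup K0) = τ from rfl, hfix] at this

theorem mem_decomposition_of_mem_inertia {σ : L ≃ₐ[K0] L} (hσ : σ ∈ A.inertiaSubgroupIn K0) :
    σ ∈ A.decompositionSubgroup K0 := by
  obtain ⟨τ, -, rfl⟩ := hσ
  exact τ.2

end Field

section Curve

variable {R : Type*} {K0 : Type*} {L : Type*} [CommRing R] [Field K0] [Field L]
  [DecidableEq L] [Algebra R K0] [Algebra R L] [Algebra K0 L] [IsScalarTower R K0 L]
  {W' : Affine R} {A : ValuationSubring L} [DecidableEq (IsLocalRing.ResidueField A)]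
  {Wk : Affine (IsLocalRing.ResidueField A)} (h : IsRed A (W'⁄L) Wk)

theorem nonsingular_apply (σ : L ≃ₐ[K0] L) {x y : L} (hxy : (W'⁄L).Nonsingular x y) :
    (W'⁄L).Nonsingular (σ x) (σ y) :=
  (W'.baseChange_nonsingular σ.toAlgHom.injective ..).mpr hxy

theorem smul_some (σ : L ≃ₐ[K0] L) {x y : L} (hxy : (W'⁄L).Nonsingular x y) :
    σ • (Point.some x y hxy : (W'⁄L).Point)
      = Point.some (σ x) (σ y) (nonsingular_apply σ hxy) := rfl

/-- the decomposition group and the reduction map: the kernel of reduction is stable -/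
theorem red_smul_eq_zero_iff {σ : L ≃ₐ[K0] L} (hσ : σ ∈ A.decompositionSubgroup K0)
    (P : (W'⁄L).Point) : red h (σ • P) = 0 ↔ red h P = 0 := by
  rcases P with _ | ⟨x, y, hxy⟩
  · exact Iff.rfl
  · rw [smul_some, red_eq_zero_iff, red_eq_zero_iff, inKer_some, inKer_some, ← not_le, ← not_le,
      A.valuation_le_one_iff, A.valuation_le_one_iff, apply_mem_iff_of_mem_decomposition hσ]

/-- the decomposition group and the reduction map: coordinates -/
theorem red_smul_some {σ : L ≃ₐ[K0] L} (hσ : σ ∈ A.decompositionSubgroup K0)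
    {P : (W'⁄L).Point} {xb yb : IsLocalRing.ResidueField A} {hb : Wk.Nonsingular xb yb}
    (hP : red h P = Point.some xb yb hb) :
    ∃ hb' : Wk.Nonsingular ((⟨σ, hσ⟩ : A.decompositionSubgroup K0) • xb)
        ((⟨σ, hσ⟩ : A.decompositionSubgroup K0) • yb),
      red h (σ • P) = Point.some _ _ hb' := by
  have hP0 : red h P ≠ 0 := by rw [hP]; exact Point.some_ne_zero _
  obtain ⟨x, y, hxy, xb', yb', rfl, hx, hy⟩ := exists_of_red_ne_zero h hP0
  rw [red_some_of_redTo h hxy hx hy] at hP
  injection hP with hxx hyy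
  subst hxx
  subst hyy
  rw [smul_some]
  exact ⟨_, red_some_of_redTo h _ (redTo_smul hσ hx) (redTo_smul hσ hy)⟩

/-- the inertia group does not change the reduction -/
theorem red_smul_of_mem_inertia {σ : L ≃ₐ[K0] L} (hσ : σ ∈ A.inertiaSubgroupIn K0)
    (P : (W'⁄L).Point) : red h (σ • P) = red h P := by
  by_cases hP : red h P = 0
  · rw [hP, red_smul_eq_zero_iff h (mem_decomposition_of_mem_inertia hσ)]
    exact hP
  · obtain ⟨x, y, hxy, xb, yb, rfl, hx, hy⟩ := exists_of_red_ne_zero h hP
    rw [smul_some, red_some_of_redTo h hxy hx hy,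
      red_some_of_redTo h _ (redTo_of_mem_inertia hσ hx) (redTo_of_mem_inertia hσ hy)]

include h in
/-- **Good reduction: the inertia group acts trivially on the `n`-torsion, `n` a unit of `A`.** -/
theorem smul_eq_of_mem_inertia {σ : L ≃ₐ[K0] L} (hσ : σ ∈ A.inertiaSubgroupIn K0) {n : ℕ}
    (hn : A.valuation (n : L) = 1) {P : (W'⁄L).Point} (hP : n • P = 0) : σ • P = P := by
  refine eq_of_red_eq_of_nsmul_eq_zero h hn ?_ hP (red_smul_of_mem_inertia h hσ P)
  have e : n • (σ • P) = σ • (n • P) := (map_nsmul (Point.map (W' := W') σ.toAlgHom) n P).symm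
  rw [e, hP, smul_zero]

end Curve

end Fermat.Agent.S58.Red.Galois
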