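import Mathlib
import Fermat.Prelude.Def_FLTPrelim_Modularity
import Fermat.Prelude.Def_FLTPrelim_Ramification
import Fermat.Agent.S58.Red.Galois

/-!
# S58 scratch, block (E2) RedInj, part 7: good primes of an integral model over `ℤ`

`W : WeierstrassCurve ℤ`, `q` a prime with `q ∤ Δ(W)`, `A` a valuation subring of `ℚ̄` over `q`.

* `isRed_of_good` : `W ⊗ ℚ̄` reduces to `W ⊗ k_A` with good reduction;
* `valuation_natCast_eq_one` : `v (m) = 1` for `m` prime to `q`;
* `good` : **the inertia group at `A` acts trivially on `E[m]`, `(m, q) = 1`** — the field `good`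
  of `Fermat.Agent.S58.TateE.Hyp` (helper19's interface (I3)).
-/

set_option autoImplicit false
set_option linter.unusedSectionVars false

namespace Fermat.Agent.S58.Red.Good

open WeierstrassCurve WeierstrassCurve.Affine
open scoped WeierstrassCurve.Affine
open Fermat.Agent.S58.Red.ResidueRel Fermat.Agent.S58.Red.Kernel Fermat.Agent.S58.Red.CurveRed
  Fermat.Agent.S58.Red.Hom Fermat.Agent.S58.Red.Galois

section General

variable {L : Type*} [Field L] {A : ValuationSubring L}

theorem redTo_intCast (n : ℤ) : RedTo A (n : L) (n : IsLocalRing.ResidueField A) := by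
  induction n using Int.induction_on with
  | zero => rw [Int.cast_zero, Int.cast_zero]; exact RedTo.zero
  | succ n ih => rw [Int.cast_add, Int.cast_add, Int.cast_one, Int.cast_one]; exact ih.add RedTo.one
  | pred n ih => rw [Int.cast_sub, Int.cast_sub, Int.cast_one, Int.cast_one]; exact ih.sub RedTo.one

/-- the residue field has characteristic `q` -/
theorem natCast_residue_eq_zero {q : ℕ} (hA : A.LiesOverPrime q) :
    (q : IsLocalRing.ResidueField A) = 0 := by
  have hv : A.valuation (q : L) < 1 := (ValuationSubring.mem_nonunits_iff (A := A)).mp hA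
  exact (RedTo.natCast (A := A) q).unique (RedTo.of_v_lt_one hv)

theorem intCast_residue_ne_zero {q : ℕ} (hq : q.Prime) (hA : A.LiesOverPrime q) {n : ℤ}
    (hn : ¬ (q : ℤ) ∣ n) : (n : IsLocalRing.ResidueField A) ≠ 0 := by
  intro h0
  have hcop : IsCoprime (q : ℤ) n :=
    ((Nat.prime_iff_prime_int.mp hq).irreducible.coprime_iff_not_dvd).mpr hn
  obtain ⟨a, b, hab⟩ := hcop
  have h1 := congrArg (Int.cast : ℤ → IsLocalRing.ResidueField A) hab
  rw [Int.cast_add, Int.cast_mul, Int.cast_mul, Int.cast_natCast, natCast_residue_eq_zero hA, h0,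
    mul_zero, mul_zero, add_zero, Int.cast_one] at h1
  exact zero_ne_one h1

theorem valuation_natCast_eq_one {q : ℕ} (hq : q.Prime) (hA : A.LiesOverPrime q) {m : ℕ}
    (hm : m.Coprime q) : A.valuation (m : L) = 1 := by
  have hn : ¬ (q : ℤ) ∣ (m : ℤ) := by
    rw [Int.natCast_dvd_natCast]
    exact (Nat.Prime.coprime_iff_not_dvd hq).mp hm.symm
  have h1 := intCast_residue_ne_zero hq hA hn
  have h2 := redTo_intCast (A := A) (m : ℤ)
  rw [Int.cast_natCast] at h1
  rw [Int.cast_natCast, Int.cast_natCast] at h2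
  exact h2.v_eq_one h1

end General

local notation "Qb" => AlgebraicClosure ℚ

/-- **Good reduction of an integral model.** -/
theorem isRed_of_good (W : WeierstrassCurve ℤ) {q : ℕ} (hq : q.Prime) (hgood : W.IsGoodPrimeFor q)
    (A : ValuationSubring Qb) (hA : A.LiesOverPrime q) :
    IsRed A ((W.map (Int.castRingHom ℚ))⁄Qb)
      ((W.map (Int.castRingHom (IsLocalRing.ResidueField A))).toAffine) := by
  have key : ∀ n : ℤ, RedTo A (algebraMap ℚ Qb (Int.castRingHom ℚ n))
      (Int.castRingHom (IsLocalRing.ResidueField A) n) := by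
    intro n
    rw [eq_intCast, map_intCast, eq_intCast]
    exact redTo_intCast n
  refine ⟨key _, key _, key _, key _, key _, ?_⟩
  rw [WeierstrassCurve.map_Δ, eq_intCast]
  exact intCast_residue_ne_zero hq hA hgood

open Classical in
/-- **(I3)**: the inertia group at a good prime `q` acts trivially on `E[m]`, `(m, q) = 1`. -/
theorem good (W : WeierstrassCurve ℤ) (q : ℕ) (hq : q.Prime) (hgood : W.IsGoodPrimeFor q)
    (A : ValuationSubring Qb) (hA : A.LiesOverPrime q)
    (σ : Qb ≃ₐ[ℚ] Qb) (hσ : σ ∈ A.inertiaSubgroupIn ℚ) (m : ℕ) (hm : m.Coprime q)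
    (P : ((W.map (Int.castRingHom ℚ))⁄Qb).Point) (hP : m • P = 0) : σ • P = P :=
  smul_eq_of_mem_inertia (isRed_of_good W hq hgood A hA) hσ
    (valuation_natCast_eq_one hq hA hm) hP

end Fermat.Agent.S58.Red.Good
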