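import Mathlib
import Fermat.Prelude.Def_EllipticCurve_FrobeniusTrace
import Fermat.Agent.S58.Red.Good

/-!
# S58 scratch, block (E2) RedInj, part 8: the reduction half of (I2) `frob`

`W : WeierstrassCurve ℤ`, `ℓ` a good prime, `A` a valuation subring of `ℚ̄` over `ℓ`, `τ` a
Frobenius lift at `A`, `k := ResidueField A`, `Wk` any Weierstrass curve over `k` with
`IsRed A (W ⊗ ℚ̄) Wk`.  For ANY map `φ : Wk.Point → Wk.Point` given on affine points by
`(x, y) ↦ (x ^ ℓ, y ^ ℓ)`:

* `red_frob_smul` : `red h (τ • P) = φ (red h P)`;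
* `frob_of_residue` : if `φ (φ T) - a • φ T + ℓ • T = 0` for all `T : Wk.Point` (Hasse–Weil on the
  points of the reduction), then `τ • τ • P - a • τ • P + ℓ • P = 0` for all `P ∈ E[m]`,
  `(m, ℓ) = 1` — the field `frob` of `Fermat.Agent.S58.TateE.Hyp` (helper19's interface (I2)).
* `isAlgClosed_residueField` : the residue field of a valuation subring of an algebraically closed
  field is algebraically closed.
-/

set_option autoImplicit false
set_option linter.unusedSectionVars false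

namespace Fermat.Agent.S58.Red.Frob

open WeierstrassCurve WeierstrassCurve.Affine
open scoped WeierstrassCurve.Affine
open Fermat.Agent.S58.Red.ResidueRel Fermat.Agent.S58.Red.Kernel Fermat.Agent.S58.Red.CurveRed
  Fermat.Agent.S58.Red.Hom Fermat.Agent.S58.Red.Galois Fermat.Agent.S58.Red.Good

section General

variable {R : Type*} {K0 : Type*} {L : Type*} [CommRing R] [Field K0] [Field L]
  [DecidableEq L] [Algebra R K0] [Algebra R L] [Algebra K0 L] [IsScalarTower R K0 L]
  {W' : Affine R} {A : ValuationSubring L} [DecidableEq (IsLocalRing.ResidueField A)]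
  {Wk : Affine (IsLocalRing.ResidueField A)} (h : IsRed A (W'⁄L) Wk)

/-- the reduction of `τ • P` for a Frobenius lift `τ` -/
theorem red_frob_smul {τ : L ≃ₐ[K0] L} {q : ℕ} (hτ : A.IsFrobeniusAt τ q)
    (φ : Wk.Point → Wk.Point) (hφ0 : φ 0 = 0)
    (hφ : ∀ (x y : IsLocalRing.ResidueField A) (hxy : Wk.Nonsingular x y),
      ∃ hxy' : Wk.Nonsingular (x ^ q) (y ^ q), φ (Point.some x y hxy) = Point.some _ _ hxy')
    (P : (W'⁄L).Point) : red h (τ • P) = φ (red h P) := by
  have hD := hτ.mem_decompositionSubgroup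
  by_cases hP : red h P = 0
  · rw [hP, hφ0, red_smul_eq_zero_iff h hD]
    exact hP
  · obtain ⟨x, y, hxy, xb, yb, rfl, hx, hy⟩ := exists_of_red_ne_zero h hP
    have hr := red_some_of_redTo h hxy hx hy
    obtain ⟨hb', hr'⟩ := red_smul_some h hD hr
    obtain ⟨hb'', hφ'⟩ := hφ xb yb (nonsingular_red h hxy.left hx hy)
    rw [hr, hφ', hr']
    have e1 := hτ.smul_residue_eq xb
    have e2 := hτ.smul_residue_eq yb
    congr 1

include h in
/-- **(I2) from Hasse–Weil on the points of the reduction.** -/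
theorem frob_of_residue {τ : L ≃ₐ[K0] L} {q : ℕ} (hτ : A.IsFrobeniusAt τ q)
    (φ : Wk.Point → Wk.Point) (hφ0 : φ 0 = 0)
    (hφ : ∀ (x y : IsLocalRing.ResidueField A) (hxy : Wk.Nonsingular x y),
      ∃ hxy' : Wk.Nonsingular (x ^ q) (y ^ q), φ (Point.some x y hxy) = Point.some _ _ hxy')
    (a : ℤ) (hHW : ∀ T : Wk.Point, φ (φ T) - a • φ T + q • T = 0)
    {m : ℕ} (hm : A.valuation (m : L) = 1) {P : (W'⁄L).Point} (hP : m • P = 0) :
    τ • τ • P - a • τ • P + q • P = 0 := by
  have hmτ : ∀ Q : (W'⁄L).Point, m • Q = 0 → m • (τ • Q) = 0 := by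
    intro Q hQ
    have e : m • (τ • Q) = τ • (m • Q) := (map_nsmul (Point.map (W' := W') τ.toAlgHom) m Q).symm
    rw [e, hQ, smul_zero]
  have h1 := hmτ P hP
  have h2 := hmτ _ h1
  refine eq_zero_of_red_eq_zero_of_nsmul_eq_zero h hm ?_ ?_
  · rw [smul_add, smul_sub, smul_comm m a, smul_comm m q, h2, h1, hP, smul_zero, smul_zero,
      sub_zero, add_zero]
  · have hr : ∀ Q : (W'⁄L).Point, red h (τ • Q) = φ (red h Q) :=
      red_frob_smul h hτ φ hφ0 hφ
    have hadd : ∀ Q Q' : (W'⁄L).Point, red h (Q + Q') = red h Q + red h Q' := red_add h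
    have hz : ∀ (c : ℤ) (Q : (W'⁄L).Point), red h (c • Q) = c • red h Q :=
      fun c Q => map_zsmul (redHom h) c Q
    have hn : ∀ (c : ℕ) (Q : (W'⁄L).Point), red h (c • Q) = c • red h Q :=
      fun c Q => map_nsmul (redHom h) c Q
    rw [sub_eq_add_neg, hadd, hadd, red_neg, hz, hn, hr, hr, ← sub_eq_add_neg]
    exact hHW _

end General

/-! ### The residue field of a valuation subring of an algebraically closed field -/

section AlgClosed

variable {L : Type*} [Field L] [IsAlgClosed L] (A : ValuationSubring L)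

theorem isAlgClosed_residueField : IsAlgClosed (IsLocalRing.ResidueField A) := by
  refine IsAlgClosed.of_exists_root _ ?_
  intro p hpm hpi
  obtain ⟨P, hP, hPd, hPm⟩ := Polynomial.lifts_and_degree_eq_and_monic
    ((Polynomial.mem_lifts p).mpr
      ((Polynomial.map_surjective _ IsLocalRing.residue_surjective) p)) hpm
  have hdeg : (P.map (algebraMap A L)).degree ≠ 0 := by
    rw [Polynomial.degree_map_eq_of_injective (FaithfulSMul.algebraMap_injective A L), hPd]
    exact (Polynomial.degree_pos_of_irreducible hpi).ne'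
  obtain ⟨r, hr⟩ := IsAlgClosed.exists_root (P.map (algebraMap A L)) hdeg
  have hint : IsIntegral A r := ⟨P, hPm, by
    rwa [Polynomial.IsRoot.def, Polynomial.eval_map] at hr⟩
  obtain ⟨r', rfl⟩ := IsIntegrallyClosed.isIntegral_iff.mp hint
  refine ⟨IsLocalRing.residue A r', ?_⟩
  rw [← hP, Polynomial.eval_map, Polynomial.eval₂_at_apply]
  rw [Polynomial.IsRoot.def, Polynomial.eval_map, Polynomial.eval₂_at_apply] at hr
  have := (FaithfulSMul.algebraMap_injective A L) (hr.trans (map_zero _).symm)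
  rw [this, map_zero]

end AlgClosed

/-! ### The integral model over `ℤ` -/

section Model

local notation "Qb" => AlgebraicClosure ℚ

/-- the residue field at a place over `ℓ` has characteristic `ℓ` -/
theorem charP_residueField {ℓ : ℕ} (hℓ : ℓ.Prime) {A : ValuationSubring Qb}
    (hA : A.LiesOverPrime ℓ) : CharP (IsLocalRing.ResidueField A) ℓ := by
  exact (CharP.charP_iff_prime_eq_zero hℓ).mpr (natCast_residue_eq_zero hA)

/-- good reduction, with the reduction written as `(W mod ℓ) ⊗ k_A` -/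
theorem isRed_of_good_zmod (W : WeierstrassCurve ℤ) {ℓ : ℕ} (hℓ : ℓ.Prime)
    (hgood : W.IsGoodPrimeFor ℓ) (A : ValuationSubring Qb) (hA : A.LiesOverPrime ℓ)
    [Algebra (ZMod ℓ) (IsLocalRing.ResidueField A)] :
    IsRed A ((W.map (Int.castRingHom ℚ))⁄Qb)
      ((W.reductionMod ℓ)⁄(IsLocalRing.ResidueField A)) := by
  have key : ∀ n : ℤ, RedTo A (algebraMap ℚ Qb (Int.castRingHom ℚ n))
      (algebraMap (ZMod ℓ) (IsLocalRing.ResidueField A) (Int.castRingHom (ZMod ℓ) n)) := by
    intro n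
    rw [eq_intCast, map_intCast, eq_intCast, map_intCast]
    exact redTo_intCast n
  refine ⟨key _, key _, key _, key _, key _, ?_⟩
  change ((W.map (Int.castRingHom (ZMod ℓ))).map
    (algebraMap (ZMod ℓ) (IsLocalRing.ResidueField A))).Δ ≠ 0
  rw [WeierstrassCurve.map_Δ, WeierstrassCurve.map_Δ, eq_intCast, map_intCast]
  exact intCast_residue_ne_zero hℓ hA hgood

open Classical in
/-- **(I2)** `frob` of `TateE.Hyp`, from Hasse–Weil on the points of `(W mod ℓ)(k_A)`. -/
theorem frob_of_HW (W : WeierstrassCurve ℤ) (ℓ : ℕ) (hℓ : ℓ.Prime) (hgood : W.IsGoodPrimeFor ℓ)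
    (A : ValuationSubring Qb) (hA : A.LiesOverPrime ℓ)
    [Algebra (ZMod ℓ) (IsLocalRing.ResidueField A)]
    (φ : ((W.reductionMod ℓ)⁄(IsLocalRing.ResidueField A)).Point →
      ((W.reductionMod ℓ)⁄(IsLocalRing.ResidueField A)).Point) (hφ0 : φ 0 = 0)
    (hφ : ∀ (x y : IsLocalRing.ResidueField A)
      (hxy : ((W.reductionMod ℓ)⁄(IsLocalRing.ResidueField A)).Nonsingular x y),
      ∃ hxy' : ((W.reductionMod ℓ)⁄(IsLocalRing.ResidueField A)).Nonsingular (x ^ ℓ) (y ^ ℓ),
        φ (Point.some x y hxy) = Point.some _ _ hxy')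
    (hHW : ∀ T : ((W.reductionMod ℓ)⁄(IsLocalRing.ResidueField A)).Point,
      φ (φ T) - W.apOfModel ℓ • φ T + ℓ • T = 0)
    (τ : Qb ≃ₐ[ℚ] Qb) (hτ : A.IsFrobeniusAt τ ℓ) (m : ℕ) (hm : m.Coprime ℓ)
    (P : ((W.map (Int.castRingHom ℚ))⁄Qb).Point) (hP : m • P = 0) :
    τ • τ • P - W.apOfModel ℓ • τ • P + ℓ • P = 0 :=
  frob_of_residue (isRed_of_good_zmod W hℓ hgood A hA) hτ φ hφ0 hφ (W.apOfModel ℓ) hHW
    (valuation_natCast_eq_one hℓ hA hm) hP

end Model

end Fermat.Agent.S58.Red.Frob
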